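/-
Project M59 (S59), block [A'] LG, cell `TWLevel` (helper2).  Prefix `m59lg_`, namespace
`Fermat.Agent.M59`.

**(A-TW) in LEVEL form.**  On main (and in `M59/LG/AsTwin.lean`) the Galois diamonds at the
Taylor–Wiles primes are produced for a BIG system `Bg : twe_Big L Th` (module over
`𝒪[Δ_Q × Δ_Th]`).  The chain of block [E'] consists of LEVELS `L : twe_Level B p Q` with `L.IsLG2`
and no big system; this file gives the same statement for `L.T'`, `L.M`, `L.dia`: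

* `m59lg_match_one`     : the matching lemma over `O[G]`, `G = ∏ ℤ/p^{n i}` (single-group form of
  `twlg_as_match_two`);
* `m59lg_compat_level`  : `twt_Compat L.θ' ρ̄` from `twt_Compat θ ρ̄`;
* `m59lg_tw_level_one`, `m59lg_tw_level` : the Galois diamonds `u_t ∈ L.T'` (`t ∈ Q`): `u_t ≡ 1`,
  `u_t ^ |Δ_t| = 1` on `L.M`, and `(u_t - 1) L.M = (δ_t - 1) L.M`, for every ODD `p`, ANY level `N`;
* `m59lg_isType`, `m59lg_isType_flat`, `m59lg_isType_frp` : the type `m59c_IsType` (block [C-gen],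
  `M59/C/Present.lean`) of the Hecke pair `twc_hp_ofFramed` of a Hecke–Galois datum of ANY level
  (`p` may divide it): cyclotomic determinant, unramified outside, unipotent inertia at the primes
  `q ∥ level` of `Smin`; at `p`: a hypothesis, discharged in the flat case (`p ∤ level`, S32) and
  void when `p` is framed (`p ∉ Smin`).
-/
import Mathlib
import Fermat.Agent.TW.LG.AsA4
import Fermat.Agent.TW.Def.HPairOfDatum
import Fermat.Agent.TW.Top.DatumLocal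
import Fermat.Agent.M59.C.Present

set_option autoImplicit false
set_option linter.unusedSectionVars false
set_option linter.unusedVariables false
set_option linter.style.haveILetI false
set_option maxHeartbeats 1000000

open Polynomial CuspForm IsLocalRing ExtCitation Fermat.Agent.JT3
open Fermat.Agent.S53 Fermat.Agent.S56
open scoped TensorProduct

namespace Fermat.Agent.M59

open Fermat.Agent.TW

noncomputable section

local notation "GQ" => (AlgebraicClosure ℚ ≃ₐ[ℚ] AlgebraicClosure ℚ)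
local notation "Qbar" => AlgebraicClosure ℚ

section match1

variable {O 𝒰 M : Type} [CommRing O] [IsDomain O] [IsLocalRing O] [IsPrincipalIdealRing O]
  [CharZero O] [CommRing 𝒰] [Algebra O 𝒰] [AddCommGroup M] [Module O M] [Module 𝒰 M]
  [IsScalarTower O 𝒰 M]
  {ι : Type} [Fintype ι] [DecidableEq ι]

/-- **the matching lemma over `O[G]`**, `G = ∏ i, ℤ/p^{n i}`. -/
theorem m59lg_match_one (p : ℕ) [hp : Fact p.Prime] (hp2 : p ≠ 2)
    (hpO : (p : O) ∈ maximalIdeal O) (ζ : O) (hζ : IsPrimitiveRoot ζ p)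
    (P : ι → ℕ) [∀ i, NeZero (P i)] (n : ι → ℕ) (hn : ∀ i, 0 < n i) (hP : ∀ i, P i = p ^ n i)
    [Module (MonoidAlgebra O (Multiplicative (∀ i, ZMod (P i)))) M]
    [IsScalarTower O (MonoidAlgebra O (Multiplicative (∀ i, ZMod (P i)))) M]
    [SMulCommClass 𝒰 (MonoidAlgebra O (Multiplicative (∀ i, ZMod (P i)))) M]
    [Module.Finite (MonoidAlgebra O (Multiplicative (∀ i, ZMod (P i)))) M]
    [Module.Free (MonoidAlgebra O (Multiplicative (∀ i, ZMod (P i)))) M]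
    (u : ι → 𝒰) (hu : ∀ i, u i ^ P i = 1)
    (hH2 : ∀ i (m : M), ∃ m', (u i - 1) • m =
      (MonoidAlgebra.of O (Multiplicative (∀ i, ZMod (P i))) (twlg_gen P i) - 1) • m')
    (heig : ∀ i, ∀ (K : Type) [Field K] [IsAlgClosed K] [Algebra O K],
      Function.Injective (algebraMap O K) →
      ∀ (χ : 𝒰 →ₐ[O] K) (v : K ⊗[O] M), v ≠ 0 →
        (∀ x : 𝒰, (Algebra.lsmul O O M x).baseChange K v = χ x • v) →
        ∀ z : K, z ≠ 1 →
          (Algebra.lsmul O O M (MonoidAlgebra.of O (Multiplicative (∀ i, ZMod (P i)))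
            (twlg_gen P i))).baseChange K v = z • v → χ (u i) ≠ 1) :
    ∀ i (m : M), ∃ m', (MonoidAlgebra.of O (Multiplicative (∀ i, ZMod (P i)))
        (twlg_gen P i) - 1) • m = (u i - 1) • m' := by
  classical
  obtain rfl : P = fun i => p ^ n i := funext hP
  set G := Multiplicative (∀ i, ZMod (p ^ n i)) with hG
  set R := MonoidAlgebra O G with hR
  -- bases
  set B₀ := Module.Free.chooseBasis R M with hB₀
  haveI hfin : Fintype (Module.Free.ChooseBasisIndex R M) :=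
    Module.Free.ChooseBasisIndex.fintype _ _
  set Bt := (MonoidAlgebra.basis G O).smulTower B₀ with hBt
  haveI : Module.Finite O M := Module.Finite.of_basis Bt
  haveI : Module.Free O M := Module.Free.of_basis Bt
  obtain ⟨hli, hspan⟩ := twlg_mon_of_basis (O := O) (fun i => p ^ n i) B₀
  set a : ι → R := fun i => MonoidAlgebra.of O G (twlg_gen (fun i => p ^ n i) i) with ha_def
  set b : Module.Free.ChooseBasisIndex R M → M := fun j => B₀ j with hb_def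
  have hpJ : (p : O) ∈ Ideal.jacobson (⊥ : Ideal O) := by
    rw [IsLocalRing.jacobson_eq_maximalIdeal ⊥ bot_ne_top]; exact hpO
  have hζJ : 1 - ζ ∈ Ideal.jacobson (⊥ : Ideal O) := by
    rw [IsLocalRing.jacobson_eq_maximalIdeal ⊥ bot_ne_top]
    exact twlg_as_zeta_mem hp.out hpO ζ hζ
  have hζΦ : twlg_Phi p ζ = 0 := twlg_as_zeta_Phi hp.out ζ hζ
  have htfc : ∀ (c : O), c ≠ 0 → ∀ m : M, c • m = 0 → m = 0 := by
    intro c hc m hm
    exact (smul_eq_zero.1 hm).resolve_left hc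
  have htf : ∀ m : M, p • m = 0 → m = 0 := by
    intro m hm
    refine htfc (p : O) (by exact_mod_cast hp.out.ne_zero) m ?_
    rw [Nat.cast_smul_eq_nsmul]; exact hm
  have hapow : ∀ i, a i ^ p ^ n i = 1 := by
    intro i
    rw [ha_def]
    simp only
    rw [← map_pow, twlg_gen_pow (fun i => p ^ n i) i]
    exact map_one _
  have ha : ∀ i (m : M), a i ^ p ^ n i • m = m := by
    intro i m
    rw [hapow i, one_smul]
  set Ntot : ℕ := ∑ i, n i with hNtot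
  have hu' : ∀ i (m : M), u i ^ p ^ Ntot • m = m := by
    intro i m
    have hle : n i ≤ Ntot := Finset.single_le_sum (f := n) (fun _ _ => Nat.zero_le _)
      (Finset.mem_univ i)
    obtain ⟨k, hk⟩ := Nat.exists_eq_add_of_le hle
    rw [hk, pow_add, pow_mul, hu i, one_pow, one_smul]
  -- `hH3` from the eigenvector statement
  have hH3 : ∀ i (m : M), (∃ m', (u i - 1) • m = (a i - algebraMap O R ζ) • m') →
      ∃ m', m = (a i - algebraMap O R ζ) • m' := by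
    intro i m hm
    let K := AlgebraicClosure (FractionRing O)
    have hK : Function.Injective (algebraMap O K) := by
      rw [IsScalarTower.algebraMap_eq O (FractionRing O) K]
      exact (algebraMap (FractionRing O) K).injective.comp
        (IsFractionRing.injective O (FractionRing O))
    have hdK : ((p ^ n i : ℕ) : K) ≠ 0 := by
      have h1 : ((p ^ n i : ℕ) : O) ≠ 0 := by
        exact_mod_cast pow_ne_zero _ hp.out.ne_zero
      intro h0
      apply h1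
      apply hK
      rw [map_natCast, map_zero]; exact h0
    have hζd : ζ ^ p ^ n i = 1 := by
      obtain ⟨k, hk⟩ : p ∣ p ^ n i := dvd_pow_self p (hn i).ne'
      rw [hk, pow_mul, hζ.pow_eq_one, one_pow]
    set aE : Module.End O M := Algebra.lsmul O O M (a i) with haE
    set uE : Module.End O M := Algebra.lsmul O O M (u i) with huE
    have haEpow : aE ^ p ^ n i = 1 := by
      rw [haE, ← map_pow, hapow i, map_one]
    have hconv : ∀ m' : M, (aE - algebraMap O (Module.End O M) ζ) m' =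
        (a i - algebraMap O R ζ) • m' := by
      intro m'
      rw [LinearMap.sub_apply, haE, Algebra.lsmul_coe, Module.algebraMap_end_apply, sub_smul,
        algebraMap_smul]
    have hconvu : ∀ m' : M, (uE - 1 : Module.End O M) m' = (u i - 1) • m' := by
      intro m'
      rw [LinearMap.sub_apply, huE, Algebra.lsmul_coe, Module.End.one_apply, sub_smul, one_smul]
    have hsplit := twlg_basis_split a (fun i => p ^ n i) b i hli hspan
    beta_reduce at hsplit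
    obtain ⟨hli', hspan'⟩ := hsplit
    have hsat : ∀ (c : O), c ≠ 0 → ∀ m : M,
        (∃ m', c • m = (aE - algebraMap O (Module.End O M) ζ) m') →
        ∃ m', m = (aE - algebraMap O (Module.End O M) ζ) m' := by
      intro c hc m₀ hm₀
      obtain ⟨m₁, hm₁⟩ := hm₀
      obtain ⟨m₂, hm₂⟩ := twlg_hA_of_basis (a i) (p ^ n i) (pow_pos hp.out.pos _) ζ hζd (ha i)
        (fun kj : (∀ i' : {i' // i' ≠ i}, Fin (p ^ n i')) × Module.Free.ChooseBasisIndex R M =>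
          (∏ i' : {i' // i' ≠ i}, a i' ^ (kj.1 i' : ℕ)) • b kj.2) hli' hspan' c (htfc c hc) m₀
        ⟨m₁, by rw [hm₁, hconv]⟩
      exact ⟨m₂, by rw [hm₂, hconv]⟩
    have hinj : Function.Injective
        (fun q : M ⧸ LinearMap.range (aE - algebraMap O (Module.End O M) ζ) =>
          (1 : K) ⊗ₜ[O] q) :=
      twlg_as_hinj hK (twlg_as_quot_torsionFree _ hsat)
    have hcomm : ∀ s ∈ twlg_two_set O R 𝒰 M, ∀ s' ∈ twlg_two_set O R 𝒰 M, Commute s s' :=
      fun s hs s' hs' => twlg_two_comm s hs s' hs'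
    have heigen : ∀ v : K ⊗[O] M, v ≠ 0 →
        (∀ s ∈ twlg_two_set O R 𝒰 M, ∃ c : K, s.baseChange K v = c • v) →
        aE.baseChange K v = algebraMap O K ζ • v → uE.baseChange K v ≠ v := by
      intro v hv0 hv hav
      obtain ⟨χ, hχ⟩ := twlg_as_char_of_eigen (K := K)
        (Algebra.lsmul O O M : 𝒰 →ₐ[O] Module.End O M) v hv0
        (fun x => hv _ (Or.inr ⟨x, rfl⟩))
      have hz : algebraMap O K ζ ≠ 1 := by
        intro h1
        apply twlg_as_zeta_ne_one hp.out ζ hζ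
        apply hK
        rw [h1, map_one]
      have hne := heig i K hK χ v hv0 hχ (algebraMap O K ζ) hz hav
      intro huv
      apply hne
      have h2 : χ (u i) • v = v := by rw [← hχ]; exact huv
      have h3 : (χ (u i) - 1) • v = 0 := by
        have := sub_smul (χ (u i)) 1 v
        rw [this, h2, one_smul, sub_self]
      rcases smul_eq_zero.1 h3 with h4 | h4
      · exact sub_eq_zero.1 h4
      · exact absurd h4 hv0
    obtain ⟨m₁, hm₁⟩ := hm
    obtain ⟨m', hm'⟩ := twlg_as_hH3 (K := K) (p ^ n i) hdK ζ hζd (twlg_two_set O R 𝒰 M) hcomm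
      aE uE (Or.inl ⟨a i, rfl⟩) (Or.inr ⟨u i, rfl⟩) haEpow hinj heigen m
      ⟨m₁, by rw [hconvu, hconv]; exact hm₁⟩
    exact ⟨m', by rw [hm', hconv]⟩
  obtain ⟨-, k2, -, -⟩ := twlg_match_free_two (O := O) (𝒜 := R) (𝒰 := 𝒰) (M := M) p hp2 hpJ htf
    ζ hζΦ hζJ a u n hn Ntot ha hu' hH2 hH3 b hli hspan
  exact k2

end match1

section tw

variable {𝒪 : Type} [CommRing 𝒪] [IsDomain 𝒪] [IsDiscreteValuationRing 𝒪]
  [IsAdicComplete (maximalIdeal 𝒪) 𝒪] [Finite (ResidueField 𝒪)] [CharZero 𝒪]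
  {N : ℕ} [NeZero N] {S : Finset ℕ} {θ : heckeAlgebra N 2 (↑S : Set ℕ) →+* ResidueField 𝒪}
  {B : twe_Base 𝒪 N S θ} {p : ℕ} {Q : Finset ℕ} [NeZero (twe_Nbal N Q ∅)]

/-- `ρ̄` is compatible with the eigensystem of the level. -/
theorem m59lg_compat_level (L : twe_Level B p Q) (ρbar : ResidualGaloisRep (ResidueField 𝒪))
    (hcompat : twt_Compat θ ρbar) : twt_Compat L.θ' ρbar := by
  intro ℓ hℓ h1 h2 A hA σ hσ
  have h3 : ¬ ℓ ∣ N := fun h => h1 (by
    unfold twe_Nbal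
    exact dvd_mul_of_dvd_left (dvd_mul_of_dvd_left h _) _)
  have h4 : ℓ ∉ (↑S : Set ℕ) := fun h => h2 (by
    rw [Finset.mem_coe] at h ⊢
    exact Finset.mem_union_left _ h)
  rw [L.θ'_eq ℓ hℓ h1 h2 h3 h4]
  exact hcompat ℓ hℓ h3 h4 A hA σ hσ

/-- the per-prime output of `twlg_as_one` for a level. -/
theorem m59lg_tw_level_one [hpF : Fact p.Prime] (hp2' : p ≠ 2) (hp𝒪 : (p : 𝒪) ∈ maximalIdeal 𝒪)
    (hpS : p ∈ S) (hNS : ∀ ℓ : ℕ, ℓ.Prime → ℓ ∣ N → ℓ ∈ S)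
    (ρbar : ResidualGaloisRep (ResidueField 𝒪)) (hcompat : twt_Compat θ ρbar)
    (hunr : ∀ t ∈ Q, ρbar.IsUnramifiedAt t)
    (hQS : ∀ t ∈ Q, t ∉ S) (hTW : twe_IsTWSet θ p Q)
    (hsplit : ∀ t ∈ Q, ∀ P : ValuationSubring Qbar, P.LiesOverPrime t → ∀ φ : GQ,
      P.IsFrobeniusAt φ t →
      ∃ α β : ResidueField 𝒪, α ≠ β ∧ LinearMap.charpoly (ρbar.ρ φ) = (X - C α) * (X - C β))
    (L : twe_Level B p Q) (hL : L.IsLG2) (t : ℕ) (ht : t ∈ Q) :
    ∃ u : L.T', u - 1 ∈ maximalIdeal L.T' ∧ u ^ p ^ padicValNat p (t - 1) = 1 ∧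
      (∀ m : L.M, ∃ m' : L.M, (u - 1) • m = L.dia t ht m' - m') ∧
      ∀ (K : Type) [Field K] [IsAlgClosed K] [Algebra 𝒪 K],
        Function.Injective (algebraMap 𝒪 K) →
        ∀ (χ : L.T' →ₐ[𝒪] K) (v : K ⊗[𝒪] L.M), v ≠ 0 →
          (∀ x : L.T', (twe_act (MX := L.M) x).baseChange K v = χ x • v) →
          ∀ z : K, z ≠ 1 → (L.dia t ht).baseChange K v = z • v → χ u ≠ 1 := by
  have hp : p.Prime := hpF.out
  have hQ : ∀ t ∈ Q, t.Prime := fun t ht => (hTW t ht).1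
  have htp : t.Prime := hQ t ht
  have htmod : t % p = 1 := (hTW t ht).2.1
  have htnp : t ≠ p := fun h => hQS t ht (h ▸ hpS)
  have hpS' : p ∈ S ∪ Q := Finset.mem_union_left _ hpS
  have hTh : ∀ ℓ ∈ (∅ : Finset ℕ), ℓ.Prime ∧ ℓ ∣ N := fun ℓ hℓ => absurd hℓ (Finset.notMem_empty ℓ)
  have hNS' : ∀ r : ℕ, r.Prime → r ∣ twe_Nbal N Q ∅ → r ∈ S ∪ Q :=
    twlg_as_level_primes hNS hQ hTh
  obtain ⟨h1, h2, h3⟩ := twlg_as_level_tw hNS hQ hQS hTh t ht
  obtain ⟨⟨_, ⟨Od⟩⟩, hnew⟩ := hL t ht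
  exact twlg_as_one hp𝒪 hpS' hNS' ρbar (m59lg_compat_level L ρbar hcompat) t htp htnp htmod
    (hunr t ht) (hsplit t ht) h1 h2 h3 Od hnew

/-- **(A-TW) in level form**: the Galois diamonds of a level `L : twe_Level B p Q`, `L.IsLG2`. -/
theorem m59lg_tw_level [hpF : Fact p.Prime] (hp2' : p ≠ 2) (hp𝒪 : (p : 𝒪) ∈ maximalIdeal 𝒪)
    (ζ : 𝒪) (hζ : IsPrimitiveRoot ζ p)
    (hpS : p ∈ S) (hNS : ∀ ℓ : ℕ, ℓ.Prime → ℓ ∣ N → ℓ ∈ S)
    (ρbar : ResidualGaloisRep (ResidueField 𝒪)) (hcompat : twt_Compat θ ρbar)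
    (hunr : ∀ t ∈ Q, ρbar.IsUnramifiedAt t)
    (hQS : ∀ t ∈ Q, t ∉ S) (hTW : twe_IsTWSet θ p Q)
    (hsplit : ∀ t ∈ Q, ∀ P : ValuationSubring Qbar, P.LiesOverPrime t → ∀ φ : GQ,
      P.IsFrobeniusAt φ t →
      ∃ α β : ResidueField 𝒪, α ≠ β ∧ LinearMap.charpoly (ρbar.ρ φ) = (X - C α) * (X - C β))
    (L : twe_Level B p Q) (hL : L.IsLG2) :
    ∃ u : ∀ t : ℕ, t ∈ Q → L.T',
      (∀ t ht, u t ht - 1 ∈ maximalIdeal L.T') ∧
      (∀ t ht, u t ht ^ twe_ord p t = 1) ∧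
      (∀ t ht (m : L.M), ∃ m' : L.M, (u t ht - 1) • m = L.dia t ht m' - m') ∧
      (∀ t ht (m : L.M), ∃ m' : L.M, L.dia t ht m - m = (u t ht - 1) • m') := by
  classical
  have hp : p.Prime := hpF.out
  have hp2 : p ≠ 2 := hp2'
  have hone := fun (t : ℕ) (ht : t ∈ Q) => m59lg_tw_level_one hp2' hp𝒪 hpS hNS ρbar hcompat hunr
    hQS hTW hsplit L hL t ht
  choose u hu1 hupow hH2 heig using hone
  refine ⟨u, hu1, fun t ht => hupow t ht, hH2, ?_⟩
  haveI : ∀ i : ↥Q, NeZero (twe_ord p (i : ℕ)) := fun i => ⟨pow_ne_zero _ hp.ne_zero⟩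
  have hn : ∀ i : ↥Q, 0 < padicValNat p ((i : ℕ) - 1) := by
    intro i
    have htp : (i : ℕ).Prime := (hTW i i.2).1
    have htmod : (i : ℕ) % p = 1 := (hTW i i.2).2.1
    have hpdvd : p ∣ (i : ℕ) - 1 := by
      have h1 : 1 ≡ (i : ℕ) [MOD p] := by
        rw [Nat.ModEq, htmod, Nat.mod_eq_of_lt hp.one_lt]
      exact (Nat.modEq_iff_dvd' htp.one_le).1 h1
    exact one_le_padicValNat_of_dvd (by have := htp.two_le; omega) hpdvd
  have key := m59lg_match_one (O := 𝒪) (𝒰 := L.T') (M := L.M) p hp2 hp𝒪 ζ hζ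
    (fun i : ↥Q => twe_ord p (i : ℕ)) (fun i : ↥Q => padicValNat p ((i : ℕ) - 1)) hn
    (fun _ => rfl)
    (fun i : ↥Q => u i i.2) (fun i => hupow i i.2)
    (fun i m => by
      obtain ⟨m', hm'⟩ := hH2 i i.2 m
      refine ⟨m', ?_⟩
      rw [hm', sub_smul, one_smul]
      rfl)
    (fun i K _ _ _ hK χ v hv0 hv z hz hδ =>
      heig i i.2 K hK χ v hv0 (fun x => by rw [twlg_as_act_eq]; exact hv x) z hz hδ)
  intro t ht m
  obtain ⟨m', hm'⟩ := key ⟨t, ht⟩ m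
  refine ⟨m', ?_⟩
  rw [← hm', sub_smul, one_smul]
  rfl

end tw

section types

variable {𝒪 : Type} [CommRing 𝒪] [IsDomain 𝒪] [IsDiscreteValuationRing 𝒪]
  [IsAdicComplete (maximalIdeal 𝒪) 𝒪] [Finite (ResidueField 𝒪)] [CharZero 𝒪]
  {p : ℕ} {Nb : ℕ} [NeZero Nb] {S' : Finset ℕ}
  {θX : heckeAlgebra Nb 2 (↑S' : Set ℕ) →+* ResidueField 𝒪}
  {T : Type} [CommRing T] [IsLocalRing T] [IsNoetherianRing T]
  [IsAdicComplete (maximalIdeal T) T] [Algebra 𝒪 T] [IsLocalHom (algebraMap 𝒪 T)]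
  [Module.Finite 𝒪 T] [Module.Free 𝒪 T]

attribute [local instance] S53.dualNumberAlgebra

/-- **the type of the Hecke pair of a Hecke–Galois datum**, general form: the condition at `p`
is a hypothesis. -/
theorem m59lg_isType (hp : p.Prime) (hp𝒪 : (p : 𝒪) ∈ maximalIdeal 𝒪)
    (hpS : p ∈ S') (hNS : ∀ q : ℕ, q.Prime → q ∣ Nb → q ∈ S')
    (H : HeckeGaloisRepDatum Nb (↑S' : Set ℕ) 𝒪 θX T)
    (rb : FramedResidual (ResidueField 𝒪)) (r : FramedRep T)
    (hr : H.ρ.IsEquiv r.toGaloisRepAdic)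
    (hl : r.IsLiftOf rb (ResidueField.map (algebraMap 𝒪 T)))
    (Pp : FramedRep (DualNumber (ResidueField 𝒪)) → Prop)
    (Smin : Finset ℕ) (Th : Finset Nat.Primes) (Q : Finset ℕ)
    (hPp : p ∈ Smin → ∀ φ : T →ₐ[𝒪] DualNumber (ResidueField 𝒪), Function.Surjective φ →
      Pp (twc_frame r φ))
    (hpcover : p ∈ Smin ∪ Th.image (fun ℓ : Nat.Primes => (ℓ : ℕ)) ∪ Q)
    (hcover : ∀ q : ℕ, q.Prime → q ∣ Nb →
      q ∈ Smin ∪ Th.image (fun ℓ : Nat.Primes => (ℓ : ℕ)) ∪ Q)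
    (hSmin : ∀ q ∈ Smin, q.Prime → q ≠ p → q ∣ Nb ∧ ¬ q ^ 2 ∣ Nb) :
    m59c_IsType p Pp Smin Th Q (twc_hp_ofFramed H hNS rb r hr hl) := by
  obtain ⟨e⟩ := hr
  refine ⟨s56t_tr_detIsCyclotomic e (twt_dl_det hp hp𝒪 hNS H), hPp, ?_, ?_⟩
  · intro q hq hqU
    refine s56t_tr_isUnramifiedAt e
      (twt_dl_unram hp hp𝒪 hpS hNS H q hq (fun hqN => hqU (hcover q hq hqN)) ?_)
    rintro rfl
    exact hqU hpcover
  · intro q hqSmin hq hqp
    obtain ⟨h1, h2⟩ := hSmin q hqSmin hq hqp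
    exact s56t_tr_isUnipotentOnInertiaAt e (twt_dl_unip hp hp𝒪 hpS hNS H q hq hqp h1 h2)

/-- **the flat type**: `p ∈ Smin`, `p ∤ level` (S32). -/
theorem m59lg_isType_flat (hp : p.Prime) (hp2 : p ≠ 2) (hp𝒪 : (p : 𝒪) ∈ maximalIdeal 𝒪)
    (hpN : ¬ p ∣ Nb) (hpS : p ∈ S') (hNS : ∀ q : ℕ, q.Prime → q ∣ Nb → q ∈ S')
    (H : HeckeGaloisRepDatum Nb (↑S' : Set ℕ) 𝒪 θX T)
    (rb : FramedResidual (ResidueField 𝒪)) (r : FramedRep T)
    (hr : H.ρ.IsEquiv r.toGaloisRepAdic)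
    (hl : r.IsLiftOf rb (ResidueField.map (algebraMap 𝒪 T)))
    (Smin : Finset ℕ) (Th : Finset Nat.Primes) (Q : Finset ℕ) (hpSmin : p ∈ Smin)
    (hcover : ∀ q : ℕ, q.Prime → q ∣ Nb →
      q ∈ Smin ∪ Th.image (fun ℓ : Nat.Primes => (ℓ : ℕ)) ∪ Q)
    (hSmin : ∀ q ∈ Smin, q.Prime → q ≠ p → q ∣ Nb ∧ ¬ q ^ 2 ∣ Nb) :
    m59c_IsType p (fun r => r.toGaloisRepAdic.IsFlatAt p) Smin Th Q
      (twc_hp_ofFramed H hNS rb r hr hl) := by
  refine m59lg_isType hp hp𝒪 hpS hNS H rb r hr hl _ Smin Th Q ?_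
    (Finset.mem_union_left _ (Finset.mem_union_left _ hpSmin)) hcover hSmin
  intro _ φ hφ
  obtain ⟨e⟩ := hr
  exact twc_frame_flat r φ hφ (s56t_tr_isFlatAt e (twt_dl_flat hp hp2 hp𝒪 hpN hpS hNS H))

/-- **the type with `p` framed** (`p ∉ Smin`, `p ∈ Th`): no condition at `p`; `p` may divide the
level. -/
theorem m59lg_isType_frp (hp : p.Prime) (hp𝒪 : (p : 𝒪) ∈ maximalIdeal 𝒪)
    (hpS : p ∈ S') (hNS : ∀ q : ℕ, q.Prime → q ∣ Nb → q ∈ S')
    (H : HeckeGaloisRepDatum Nb (↑S' : Set ℕ) 𝒪 θX T)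
    (rb : FramedResidual (ResidueField 𝒪)) (r : FramedRep T)
    (hr : H.ρ.IsEquiv r.toGaloisRepAdic)
    (hl : r.IsLiftOf rb (ResidueField.map (algebraMap 𝒪 T)))
    (Pp : FramedRep (DualNumber (ResidueField 𝒪)) → Prop)
    (Smin : Finset ℕ) (Th : Finset Nat.Primes) (Q : Finset ℕ)
    (hpSmin : p ∉ Smin) (hpTh : (⟨p, hp⟩ : Nat.Primes) ∈ Th)
    (hcover : ∀ q : ℕ, q.Prime → q ∣ Nb →
      q ∈ Smin ∪ Th.image (fun ℓ : Nat.Primes => (ℓ : ℕ)) ∪ Q)
    (hSmin : ∀ q ∈ Smin, q.Prime → q ≠ p → q ∣ Nb ∧ ¬ q ^ 2 ∣ Nb) :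
    m59c_IsType p Pp Smin Th Q (twc_hp_ofFramed H hNS rb r hr hl) := by
  classical
  refine m59lg_isType hp hp𝒪 hpS hNS H rb r hr hl Pp Smin Th Q (fun h => absurd h hpSmin)
    ?_ hcover hSmin
  exact Finset.mem_union_left _ (Finset.mem_union_right _
    (Finset.mem_image.2 ⟨⟨p, hp⟩, hpTh, rfl⟩))

end types

end

end Fermat.Agent.M59
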