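/-
Project M59 (S59), block [A'] LG, cell [ENTRY-ext] (helper2).  Prefix `m59lg_`, namespace
`Fermat.Agent.M59`.

From an eigensystem AWAY FROM `S` with the eigenvalues of `W` (`m59e_Occ p W S N`) to an eigensystem
`θ₀ : 𝕋_{S₀}(N) → k` on the BIGGER anemic algebra (`S₀ ⊆ S`, `p ∈ S₀`, primes of `N` in `S₀`) which
is COMPATIBLE with a given absolutely irreducible `ρ̄ : ResidualGaloisRep k` having the Frobenius
polynomials of `W` at the good primes: in particular `ρ̄` is unramified, with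
`charpoly ρ̄(Frob_ℓ) = X² - θ₀(T_ℓ) X + ℓ`, at the primes `ℓ ∈ S ∖ S₀` (bad for `W` or not).

Proof: Deligne–Serre lifting (`twfx_lift`) gives an eigenform `g` of level `N` and `𝔪' ∋ p`;
`Ω := ` an algebraic closure of `ℤ̄/𝔪'`, `k ↪ Ω`; S29 gives `ρ_g` over `Ω`, unramified outside
`N p`; Chebotarev + Brauer–Nesbitt (`twt_re_equiv`) give `ρ̄ ⊗ Ω ≅ ρ_g`; the eigencharacter of `g` on
`𝕋_{S₀}(N)` reduced to `Ω` takes its values in `k` (coefficients of the polynomials of `ρ̄`).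
-/
import Mathlib
import Fermat.Agent.M59.Top.EngSeams
import Fermat.Agent.M59.Top.CoreSeams
import Fermat.Agent.TW.Top.ResidEquiv
import Fermat.Agent.TW.Top.CInput
import Fermat.Agent.TW.Easy.Exit
import Fermat.Agent.S29
import Fermat.Agent.JT3.ES.FrobExists
import Fermat.Agent.JT3.Pack.Res.Eigenchar

set_option autoImplicit false
set_option linter.unusedSectionVars false
set_option linter.unusedVariables false
set_option linter.style.haveILetI false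
set_option maxHeartbeats 1000000

open Polynomial CuspForm IsLocalRing WeierstrassCurve CongruenceSubgroup ModularFormClass
open Fermat.Agent.TW Fermat.Agent.JT3 Fermat.Agent.S56 ExtCitation

namespace Fermat.Agent.M59

noncomputable section

/-- **[ENTRY-ext], core form.** -/
theorem m59lg_entry_core {p : ℕ} [hpF : Fact p.Prime] (hp2 : p ≠ 2) (W : WeierstrassCurve ℤ)
    {k : Type} [Field k] [Finite k] [CharP k p]
    (ρbar : ResidualGaloisRep k) (habs : ρbar.IsAbsolutelyIrreducible)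
    (hfrob : ∀ ℓ : ℕ, ℓ.Prime → ℓ ≠ p → W.IsGoodPrimeFor ℓ →
      ∀ A : ValuationSubring twt_Qb, A.LiesOverPrime ℓ → ∀ σ : twt_G, A.IsFrobeniusAt σ ℓ →
        LinearMap.charpoly (ρbar.ρ σ) =
          X ^ 2 - C (((W.apOfModel ℓ : ℤ) : k)) * X + C ((ℓ : k)))
    (S S0 : Finset ℕ) (hS : m59e_IsBadSet W p S) (hS0 : S0 ⊆ S) (hpS0 : p ∈ S0)
    (N : ℕ) [NeZero N] (hNS0 : ∀ ℓ : ℕ, ℓ.Prime → ℓ ∣ N → ℓ ∈ S0)
    {k' : Type} [Field k'] [CharP k' p] (θ : heckeAlgebra N 2 (↑S : Set ℕ) →+* k')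
    (hθ : m59e_IsWEig W θ) :
    ∃ θ0 : heckeAlgebra N 2 (↑S0 : Set ℕ) →+* k, twt_Compat θ0 ρbar ∧
      ∀ (ℓ : ℕ) (hℓ : ℓ.Prime) (hℓN : ¬ ℓ ∣ N) (hℓS0 : ℓ ∉ (↑S0 : Set ℕ)), ℓ ∉ S →
        θ0 (heckeAlgebra.T hℓ hℓN hℓS0) = ((W.apOfModel ℓ : ℤ) : k) := by
  classical
  have hp : p.Prime := hpF.out
  -- Deligne–Serre lifting
  obtain ⟨g, 𝔪', hg, hmax, hpm, hcong⟩ :=
    twfx_lift hp (↑S : Set ℕ) θ (fun ℓ => W.apOfModel ℓ) hθ
  haveI := hmax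
  letI : Field (integralClosure ℤ ℂ ⧸ 𝔪') := Ideal.Quotient.field 𝔪'
  haveI hcharK : CharP (integralClosure ℤ ℂ ⧸ 𝔪') p := by
    rw [CharP.charP_iff_prime_eq_zero hp]
    have : ((p : integralClosure ℤ ℂ ⧸ 𝔪')) = Ideal.Quotient.mk 𝔪' (p : integralClosure ℤ ℂ) :=
      (map_natCast (Ideal.Quotient.mk 𝔪') p).symm
    rw [this, Ideal.Quotient.eq_zero_iff_mem]
    exact hpm
  -- the big field
  let Ω : Type := AlgebraicClosure (integralClosure ℤ ℂ ⧸ 𝔪')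
  haveI hcharΩ : CharP Ω p :=
    charP_of_injective_algebraMap (algebraMap (integralClosure ℤ ℂ ⧸ 𝔪') Ω).injective p
  letI : Algebra (ZMod p) (integralClosure ℤ ℂ ⧸ 𝔪') := ZMod.algebra _ p
  letI : Algebra (ZMod p) k := ZMod.algebra _ p
  haveI : Module.Finite (ZMod p) k := Module.Finite.of_finite
  haveI : Algebra.IsAlgebraic (ZMod p) k := Algebra.IsAlgebraic.of_finite (ZMod p) k
  let ιa : k →ₐ[ZMod p] Ω := IsAlgClosed.lift
  let ι : k →+* Ω := ιa.toRingHom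
  have hι : Function.Injective ι := ι.injective
  letI : Algebra k Ω := ι.toAlgebra
  have halg : ∀ x : k, algebraMap k Ω x = ι x := fun _ => rfl
  have h2Ω : (2 : Ω) ≠ 0 := by
    intro h
    have h2 : ((2 : ℕ) : Ω) = 0 := by exact_mod_cast h
    have hdvd := (CharP.cast_eq_zero_iff Ω p 2).mp h2
    exact hp2 ((Nat.prime_dvd_prime_iff_eq hp Nat.prime_two).mp hdvd)
  have hℓΩ : ∀ ℓ : ℕ, ℓ.Prime → ℓ ≠ p → (ℓ : Ω) ≠ 0 := by
    intro ℓ hℓ hℓp h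
    have hdvd := (CharP.cast_eq_zero_iff Ω p ℓ).mp h
    exact hℓp ((Nat.prime_dvd_prime_iff_eq hp hℓ).mp hdvd).symm
  -- the two representations over `Ω`
  have habsΩ : (ρbar.baseChange Ω).IsAbsolutelyIrreducible := twt_ci_abs ρbar h2Ω habs
  let φ : integralClosure ℤ ℂ →+* Ω :=
    (algebraMap (integralClosure ℤ ℂ ⧸ 𝔪') Ω).comp (Ideal.Quotient.mk 𝔪')
  have hφm : ∀ x ∈ 𝔪', φ x = 0 := by
    intro x hx
    show algebraMap (integralClosure ℤ ℂ ⧸ 𝔪') Ω (Ideal.Quotient.mk 𝔪' x) = 0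
    rw [Ideal.Quotient.eq_zero_iff_mem.mpr hx, map_zero]
  obtain ⟨ρg, hatt, hunr⟩ := Fermat.Agent.S29.result (k := Ω) hg hp φ
  -- the Frobenius polynomial of `ρ_g` at a prime `ℓ ∤ N`, `ℓ ≠ p`, in terms of ONE integer `a_ℓ(g)`
  have hattc : ∀ (ℓ : ℕ), ℓ.Prime → ¬ ℓ ∣ N → ℓ ≠ p → ∀ b : integralClosure ℤ ℂ,
      (b : ℂ) = qCoeff g ℓ → ∀ A : ValuationSubring twt_Qb, A.LiesOverPrime ℓ →
      ∀ σ : twt_G, A.IsFrobeniusAt σ ℓ →
        LinearMap.charpoly (ρg.ρ σ) = X ^ 2 - C (φ b) * X + C ((ℓ : Ω)) := by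
    intro ℓ hℓ hℓN hℓp b hb A hA σ hσ
    obtain ⟨a, ha, hc⟩ := hatt ℓ hℓ hℓN (hℓΩ ℓ hℓ hℓp) A hA σ hσ
    have : a = b := Subtype.ext (by rw [ha, hb])
    rw [← this]
    exact hc
  -- Chebotarev + Brauer–Nesbitt
  have heq : (ρbar.baseChange Ω).IsEquiv ρg := by
    refine twt_re_equiv _ _ habsΩ (S ∪ N.primeFactors) ?_
    intro ℓ hℓ hℓS' A hA σ hσ
    rw [Finset.mem_union, not_or] at hℓS'
    have hℓN : ¬ ℓ ∣ N := fun h =>
      hℓS'.2 (Nat.mem_primeFactors.mpr ⟨hℓ, h, NeZero.ne N⟩)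
    have hℓS : ℓ ∉ (↑S : Set ℕ) := fun h => hℓS'.1 (Finset.mem_coe.mp h)
    have hℓp : ℓ ≠ p := fun h => hℓS'.1 (h ▸ hS.1)
    have hgood : W.IsGoodPrimeFor ℓ := by
      by_contra hbad
      exact hℓS'.1 (hS.2 ℓ hℓ hbad)
    obtain ⟨b, hb, hbm⟩ := hcong ℓ hℓ hℓN hℓS
    rw [twt_ci_charpoly, hfrob ℓ hℓ hℓp hgood A hA σ hσ, hattc ℓ hℓ hℓN hℓp b hb A hA σ hσ]
    have hφb : φ b = ((W.apOfModel ℓ : ℤ) : Ω) := by
      have h0 := hφm _ hbm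
      rw [map_sub, sub_eq_zero] at h0
      rw [h0, map_intCast]
    rw [hφb]
    simp only [Polynomial.map_add, Polynomial.map_sub, Polynomial.map_mul, Polynomial.map_pow,
      Polynomial.map_X, Polynomial.map_C, map_intCast, map_natCast, Polynomial.map_intCast,
      Polynomial.map_natCast]
    rw [← Polynomial.C_eq_intCast, ← Polynomial.C_eq_natCast]
  obtain ⟨e⟩ := heq
  -- the eigencharacter of `g` on the big anemic algebra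
  have hNS0' : ∀ q : ℕ, q.Prime → q ∣ N → q ∈ (↑S0 : Set ℕ) :=
    fun q hq hqN => Finset.mem_coe.mpr (hNS0 q hq hqN)
  let χ : heckeAlgebra N 2 (↑S0 : Set ℕ) →+* ℂ := prs_eigenchar hg (↑S0 : Set ℕ) hNS0'
  let χ' : heckeAlgebra N 2 (↑S0 : Set ℕ) →+* integralClosure ℤ ℂ :=
    χ.codRestrict (integralClosure ℤ ℂ).toSubring
      (fun t => prs_eigenchar_isIntegral hg (↑S0 : Set ℕ) hNS0' t)
  have hχ' : ∀ t, ((χ' t : integralClosure ℤ ℂ) : ℂ) = χ t := fun t => rfl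
  let θΩ : heckeAlgebra N 2 (↑S0 : Set ℕ) →+* Ω := φ.comp χ'
  have hχT : ∀ (ℓ : ℕ) (hℓ : ℓ.Prime) (hℓN : ¬ ℓ ∣ N) (hℓS0 : ℓ ∉ (↑S0 : Set ℕ)),
      ((χ' (heckeAlgebra.T hℓ hℓN hℓS0) : integralClosure ℤ ℂ) : ℂ) = qCoeff g ℓ := by
    intro ℓ hℓ hℓN hℓS0
    rw [hχ']
    exact prs_eigenchar_T hg (↑S0 : Set ℕ) hNS0' hℓ hℓN hℓS0
  -- the key identity: the polynomial of `ρ̄` at a Frobenius outside `S₀`
  have hkey : ∀ (ℓ : ℕ) (hℓ : ℓ.Prime) (hℓN : ¬ ℓ ∣ N) (hℓS0 : ℓ ∉ (↑S0 : Set ℕ)),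
      ∀ A : ValuationSubring twt_Qb, A.LiesOverPrime ℓ → ∀ σ : twt_G, A.IsFrobeniusAt σ ℓ →
        (LinearMap.charpoly (ρbar.ρ σ)).map ι =
          X ^ 2 - C (θΩ (heckeAlgebra.T hℓ hℓN hℓS0)) * X + C ((ℓ : Ω)) := by
    intro ℓ hℓ hℓN hℓS0 A hA σ hσ
    have hℓp : ℓ ≠ p := fun h => hℓS0 (Finset.mem_coe.mpr (h ▸ hpS0))
    have h1 := hattc ℓ hℓ hℓN hℓp (χ' (heckeAlgebra.T hℓ hℓN hℓS0)) (hχT ℓ hℓ hℓN hℓS0) A hA σ hσ
    have h2 := s56am_charpoly_of_equiv e σ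
    rw [twt_ci_charpoly] at h2
    show Polynomial.map ι (LinearMap.charpoly (ρbar.ρ σ)) =
      X ^ 2 - C (φ (χ' (heckeAlgebra.T hℓ hℓN hℓS0))) * X + C ((ℓ : Ω))
    rw [← h1, ← h2]
    rfl
  -- the values lie in `k`
  have hT : ∀ (ℓ : ℕ) (hℓ : ℓ.Prime) (hℓN : ¬ ℓ ∣ N) (hℓS0 : ℓ ∉ (↑S0 : Set ℕ)),
      θΩ (heckeAlgebra.T hℓ hℓN hℓS0) ∈ ι.range := by
    intro ℓ hℓ hℓN hℓS0
    let A := primeLocalPlace ⟨ℓ, hℓ⟩
    have hA : A.LiesOverPrime ℓ := s56ld_liesOver ⟨ℓ, hℓ⟩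
    obtain ⟨σ, hσ⟩ := fex_exists_isFrobeniusAt hℓ A hA
    have h1 := hkey ℓ hℓ hℓN hℓS0 A hA σ hσ
    have h2 := congrArg (fun P : Polynomial Ω => P.coeff 1) h1
    simp only [coeff_map, coeff_add, coeff_sub, coeff_X_pow, coeff_C_mul, coeff_X_one,
      coeff_C] at h2
    norm_num at h2
    exact ⟨-(LinearMap.charpoly (ρbar.ρ σ)).coeff 1, by rw [map_neg, h2, neg_neg]⟩
  have hrange : ∀ t : heckeAlgebra N 2 (↑S0 : Set ℕ), θΩ t ∈ ι.range := by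
    rintro ⟨t, ht⟩
    induction ht using Algebra.adjoin_induction with
    | mem x hx =>
      rcases hx with ⟨ℓ, hℓ, hℓN, hℓS, rfl⟩ | ⟨q, hqN, hq, hqS, rfl⟩
      · exact hT ℓ hℓ hℓN hℓS
      · exact absurd (hNS0' q hq hqN) hqS
    | algebraMap r =>
      refine ⟨(r : k), ?_⟩
      have : (⟨algebraMap ℤ _ r, Subalgebra.algebraMap_mem _ r⟩ :
          heckeAlgebra N 2 (↑S0 : Set ℕ)) = ((r : ℤ) : heckeAlgebra N 2 (↑S0 : Set ℕ)) := by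
        apply Subtype.ext
        simp [Algebra.algebraMap_eq_smul_one]
      rw [this, map_intCast, map_intCast]
    | add x y hx hy hx' hy' =>
      have : (⟨x + y, Subalgebra.add_mem _ hx hy⟩ : heckeAlgebra N 2 (↑S0 : Set ℕ)) =
          ⟨x, hx⟩ + ⟨y, hy⟩ := rfl
      rw [this, map_add]
      exact ι.range.add_mem hx' hy'
    | mul x y hx hy hx' hy' =>
      have : (⟨x * y, Subalgebra.mul_mem _ hx hy⟩ : heckeAlgebra N 2 (↑S0 : Set ℕ)) =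
          ⟨x, hx⟩ * ⟨y, hy⟩ := rfl
      rw [this, map_mul]
      exact ι.range.mul_mem hx' hy'
  let ei : k ≃+* ι.range := RingEquiv.ofBijective ι.rangeRestrict
    ⟨fun x y h => hι (congrArg Subtype.val h), ι.rangeRestrict_surjective⟩
  let θ0 : heckeAlgebra N 2 (↑S0 : Set ℕ) →+* k :=
    ei.symm.toRingHom.comp (θΩ.codRestrict ι.range hrange)
  have hθ0 : ∀ t, ι (θ0 t) = θΩ t := by
    intro t
    have h1 : ei (θ0 t) = θΩ.codRestrict ι.range hrange t := ei.apply_symm_apply _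
    exact congrArg Subtype.val h1
  refine ⟨θ0, ?_, ?_⟩
  · -- compatibility
    intro ℓ hℓ hℓN hℓS0 A hA σ hσ
    apply Polynomial.map_injective ι hι
    rw [hkey ℓ hℓ hℓN hℓS0 A hA σ hσ]
    simp only [Polynomial.map_add, Polynomial.map_sub, Polynomial.map_mul, Polynomial.map_pow,
      Polynomial.map_X, Polynomial.map_C, map_natCast, hθ0, Polynomial.map_natCast]
    rw [← Polynomial.C_eq_natCast]
  · -- the values at the primes outside `S`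
    intro ℓ hℓ hℓN hℓS0 hℓS
    apply hι
    rw [hθ0, map_intCast]
    have hℓS' : ℓ ∉ (↑S : Set ℕ) := fun h => hℓS (Finset.mem_coe.mp h)
    obtain ⟨b, hb, hbm⟩ := hcong ℓ hℓ hℓN hℓS'
    have hb' : χ' (heckeAlgebra.T hℓ hℓN hℓS0) = b :=
      Subtype.ext (by rw [hχT ℓ hℓ hℓN hℓS0, hb])
    show φ (χ' (heckeAlgebra.T hℓ hℓN hℓS0)) = _
    rw [hb']
    have h0 := hφm _ hbm
    rw [map_sub, sub_eq_zero] at h0
    rw [h0, map_intCast]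

/-- **[ENTRY-ext]**: the seam `m59e_EntryExt_stmt` of `M59/Top/CoreSeams.lean`, PROVED. -/
theorem m59lg_entryExt : m59e_EntryExt_stmt := by
  intro p hpF hp35 W hΔ hW 𝒪 _ _ _ _ _ _ hp𝒪 ρ hT S S₀ N _ hS hsq hS₀ hpS₀ hNS₀ hOcc
  classical
  have hp2 : p ≠ 2 := by rcases hp35 with rfl | rfl <;> norm_num
  haveI : CharP (ResidueField 𝒪) p := s56a_charP p hp𝒪
  obtain ⟨_, k', _, _, θ, hθ⟩ := hOcc
  obtain ⟨θ₀, hc, hval⟩ := m59lg_entry_core hp2 W ρ.residual hT.irr hT.frobRes S S₀ hS hS₀ hpS₀ N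
    hNS₀ θ hθ
  refine ⟨θ₀, hc, ?_⟩
  obtain ⟨ℓ, hℓ, hℓS, hne⟩ := hT.nonEis (S ∪ N.primeFactors)
  rw [Finset.mem_union, not_or] at hℓS
  have hℓN : ¬ ℓ ∣ N := fun h =>
    hℓS.2 (Nat.mem_primeFactors.mpr ⟨hℓ, h, NeZero.ne N⟩)
  have hℓS₀ : ℓ ∉ (↑S₀ : Set ℕ) := fun h => hℓS.1 (hS₀ (Finset.mem_coe.mp h))
  refine ⟨ℓ, hℓ, hℓN, hℓS₀, ?_⟩
  rw [hval ℓ hℓ hℓN hℓS₀ hℓS.1]
  exact hne

end

end Fermat.Agent.M59
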