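/-
Project M59 (S59), block [A'] LG, shared cells [LINK] and [IRR-W] (helper2; pinned by the chief in
`M59/Top/LinkSeams.lean`).  Prefix `m59lg_`, namespace `Fermat.Agent.M59`.

* `m59lg_link_abs` (abstract): `ρ₁ : ResidualGaloisRep k` absolutely irreducible, `V₂` a
  two-dimensional `F`-space (`F ⊆ k`) with an action `ρ₂` of `G_ℚ` such that every `ρ₂(g)` is killed
  by the characteristic polynomial of `ρ₁(g)` ⟹ an injective additive equivariant map `V₂ → ρ₁.V`.
  Proof: frame `ρ₁` (`exists_framedResidual`), Burnside (`residual_span_range_eq_top`), Carayol–Serre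
  rigidity `ffc_rigid` (FF/Car/Rigid.lean) for the matrices of `ρ₂` pushed to `k`.
* `m59lg_kill` : for `W[p]` and `ρ̄` with `m59e_IsTate`, the hypothesis of `m59lg_link_abs`:
  Eichler–Shimura on `W[p]` (`s44be_frob_rel`) + weak Chebotarev (`s56c_exists`) + `frobRes`.
* `m59lg_link : m59e_Link_stmt`, `m59lg_irrW : m59e_IrrW_stmt`.
-/
import Mathlib
import Fermat.Agent.M59.Top.LinkSeams
import Fermat.Agent.TW.Top.ResidEquiv
import Fermat.Agent.S44.BLR.ESide

set_option autoImplicit false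
set_option linter.unusedSectionVars false
set_option linter.unusedVariables false
set_option linter.style.haveILetI false
set_option maxHeartbeats 1000000

open Polynomial IsLocalRing WeierstrassCurve WeierstrassCurve.Affine WeierstrassCurve.Affine.Point
open Fermat.Agent.TW Fermat.Agent.S53 Fermat.Agent.S56 Fermat.Agent.S58 Fermat.Agent.S44
open Fermat.Agent.S13 Fermat.Agent.JT3

namespace Fermat.Agent.M59

noncomputable section

local notation "Qb" => AlgebraicClosure ℚ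
local notation "GQ" => (AlgebraicClosure ℚ ≃ₐ[ℚ] AlgebraicClosure ℚ)

section abs

variable {k : Type} [Field k] {F : Type} [Field F] [Algebra F k]

/-- Burnside in matrix form for a framed residual representation. -/
theorem m59lg_framed_span (rb : FramedResidual k)
    (habs : rb.toResidualGaloisRep.IsAbsolutelyIrreducible) :
    Submodule.span k (Set.range rb.toMonoidHom) = ⊤ := by
  classical
  have hspan0 := residual_span_range_eq_top rb.toResidualGaloisRep habs
  have hset : (⇑(Matrix.toLin' : Matrix (Fin 2) (Fin 2) k ≃ₗ[k] _).toLinearMap ''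
      Set.range rb.toMonoidHom) = Set.range rb.toResidualGaloisRep.ρ := by
    ext f
    constructor
    · rintro ⟨_, ⟨σ, rfl⟩, rfl⟩
      exact ⟨σ, rfl⟩
    · rintro ⟨σ, rfl⟩
      exact ⟨_, ⟨σ, rfl⟩, rfl⟩
  have h1 : (Submodule.span k (Set.range rb.toMonoidHom)).map
      (Matrix.toLin' : Matrix (Fin 2) (Fin 2) k ≃ₗ[k] _).toLinearMap = ⊤ := by
    rw [Submodule.map_span, hset]
    exact hspan0
  rw [eq_top_iff]
  rintro M -
  have h2 : (Matrix.toLin' : Matrix (Fin 2) (Fin 2) k ≃ₗ[k] _) M ∈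
      (Submodule.span k (Set.range rb.toMonoidHom)).map
        (Matrix.toLin' : Matrix (Fin 2) (Fin 2) k ≃ₗ[k] _).toLinearMap := by
    rw [h1]; exact Submodule.mem_top
  obtain ⟨M', hM', hMM'⟩ := h2
  have : M' = M := (Matrix.toLin' : Matrix (Fin 2) (Fin 2) k ≃ₗ[k] _).injective hMM'
  rwa [← this]

/-- **[LINK], abstract form.** -/
theorem m59lg_link_abs (ρ₁ : ResidualGaloisRep k) (habs : ρ₁.IsAbsolutelyIrreducible)
    {V₂ : Type} [AddCommGroup V₂] [Module F V₂] (hV₂ : Module.finrank F V₂ = 2)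
    (ρ₂ : GQ →* Module.End F V₂)
    (hkill : ∀ g : GQ, ∃ a b : F,
      ρ₂ g * ρ₂ g - a • ρ₂ g + b • (1 : Module.End F V₂) = 0 ∧
      LinearMap.charpoly (ρ₁.ρ g) = X ^ 2 - C (algebraMap F k a) * X + C (algebraMap F k b)) :
    ∃ f : V₂ →+ ρ₁.V, Function.Injective f ∧ ∀ (g : GQ) (x : V₂), f (ρ₂ g x) = ρ₁.ρ g (f x) := by
  classical
  obtain ⟨rb, ⟨e₁⟩⟩ := exists_framedResidual ρ₁
  have habs₁ : rb.toResidualGaloisRep.IsAbsolutelyIrreducible := s56am_habs_of_isEquiv ⟨e₁⟩ habs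
  have hspan := m59lg_framed_span rb habs₁
  haveI : Module.Finite F V₂ := Module.finite_of_finrank_eq_succ hV₂
  let b : Module.Basis (Fin 2) F V₂ := Module.finBasisOfFinrankEq F V₂ hV₂
  -- the matrices of `ρ₂` over `k`
  let M₂ : GQ →* Matrix (Fin 2) (Fin 2) k :=
    ((algebraMap F k).mapMatrix : Matrix (Fin 2) (Fin 2) F →+* Matrix (Fin 2) (Fin 2) k).toMonoidHom.comp
      { toFun := fun g => LinearMap.toMatrix b b (ρ₂ g)
        map_one' := by rw [_root_.map_one, LinearMap.toMatrix_one]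
        map_mul' := fun σ τ => by rw [_root_.map_mul, LinearMap.toMatrix_mul] }
  have hM₂ : ∀ g, M₂ g = (LinearMap.toMatrix b b (ρ₂ g)).map (algebraMap F k) := fun g => rfl
  -- trace and determinant of the frame of `ρ₁`
  have htd : ∀ g : GQ, ∀ a c : F,
      LinearMap.charpoly (ρ₁.ρ g) = X ^ 2 - C (algebraMap F k a) * X + C (algebraMap F k c) →
      (rb.toMonoidHom g).trace = algebraMap F k a ∧ (rb.toMonoidHom g).det = algebraMap F k c := by
    intro g a c h
    rw [s56am_charpoly_of_equiv e₁ g] at h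
    change LinearMap.charpoly (Matrix.toLin' (rb.toMonoidHom g)) = _ at h
    rw [Matrix.charpoly_toLin', Matrix.charpoly_fin_two] at h
    have h1 := congrArg (fun P : k[X] => P.coeff 1) h
    have h0 := congrArg (fun P : k[X] => P.coeff 0) h
    simp only [coeff_add, coeff_sub, coeff_X_pow, coeff_C_mul, coeff_X_one,
      coeff_X_zero, coeff_C] at h1 h0
    norm_num at h1 h0
    exact ⟨h1, h0⟩
  have hCH : ∀ g, M₂ g * M₂ g - (rb.toMonoidHom g).trace • M₂ g +
      (rb.toMonoidHom g).det • (1 : Matrix (Fin 2) (Fin 2) k) = 0 := by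
    intro g
    obtain ⟨a, c, hrel, hcp⟩ := hkill g
    obtain ⟨ht, hd⟩ := htd g a c hcp
    rw [ht, hd]
    have h1 := congrArg (LinearMap.toMatrix b b) hrel
    rw [map_add, map_sub, LinearMap.toMatrix_mul, map_smul, map_smul, LinearMap.toMatrix_one,
      _root_.map_zero] at h1
    have h2 := congrArg (fun M : Matrix (Fin 2) (Fin 2) F => M.map (algebraMap F k)) h1
    rw [hM₂]
    ext i j
    have h3 := congrFun (congrFun h2 i) j
    simp only [Matrix.map_apply, Matrix.add_apply, Matrix.sub_apply, Matrix.smul_apply,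
      Matrix.zero_apply, map_add, map_sub, smul_eq_mul, map_mul, _root_.map_zero] at h3
    simp only [Matrix.add_apply, Matrix.sub_apply, Matrix.smul_apply, Matrix.zero_apply,
      smul_eq_mul]
    rw [← h3]
    congr 1
    · congr 1
      simp only [Matrix.mul_apply, Matrix.map_apply, map_sum, map_mul]
    · congr 1
      simp only [Matrix.one_apply]
      split_ifs <;> simp
  obtain ⟨Q, hQ, hQc⟩ := Fermat.Agent.FF.ffc_rigid rb.toMonoidHom M₂ hspan hCH
  have hQQ : Q⁻¹ * Q = 1 := Matrix.nonsing_inv_mul Q hQ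
  have hQQ' : Q * Q⁻¹ = 1 := Matrix.mul_nonsing_inv Q hQ
  have hconj : ∀ g, Q⁻¹ * M₂ g = rb.toMonoidHom g * Q⁻¹ := by
    intro g
    calc Q⁻¹ * M₂ g = Q⁻¹ * (M₂ g * Q) * Q⁻¹ := by
          rw [Matrix.mul_assoc, Matrix.mul_assoc, hQQ', Matrix.mul_one]
      _ = Q⁻¹ * (Q * rb.toMonoidHom g) * Q⁻¹ := by rw [hQc g]
      _ = rb.toMonoidHom g * Q⁻¹ := by rw [← Matrix.mul_assoc, hQQ, Matrix.one_mul]
  -- the coordinate map
  let c : V₂ →+ (Fin 2 → k) :=
    { toFun := fun x i => algebraMap F k (b.repr x i)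
      map_zero' := by ext i; simp
      map_add' := fun x y => by ext i; simp }
  have hc : ∀ x i, c x i = algebraMap F k (b.repr x i) := fun x i => rfl
  have hcinj : Function.Injective c := by
    intro x y hxy
    apply b.repr.injective
    ext i
    have := congrFun hxy i
    rw [hc, hc] at this
    exact (algebraMap F k).injective this
  have hcM : ∀ g x, c (ρ₂ g x) = (M₂ g).mulVec (c x) := by
    intro g x
    ext i
    rw [hc, ← LinearMap.toMatrix_mulVec_repr b b (ρ₂ g) x, hM₂]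
    simp only [Matrix.mulVec, dotProduct, Matrix.map_apply, map_sum, map_mul, hc]
  let f : V₂ →+ ρ₁.V :=
    (e₁.toLinearEquiv.symm.toLinearMap.toAddMonoidHom.comp
      ((Matrix.toLin' Q⁻¹).toAddMonoidHom)).comp c
  have hf : ∀ x, f x = e₁.toLinearEquiv.symm (Q⁻¹.mulVec (c x)) := fun x => by
    show e₁.toLinearEquiv.symm (Matrix.toLin' Q⁻¹ (c x)) = _
    rw [Matrix.toLin'_apply]
  refine ⟨f, ?_, ?_⟩
  · intro x y hxy
    rw [hf, hf] at hxy
    have h1 := e₁.toLinearEquiv.symm.injective hxy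
    have h2 := congrArg (fun v => Q.mulVec v) h1
    simp only [Matrix.mulVec_mulVec, hQQ', Matrix.one_mulVec] at h2
    exact hcinj h2
  · intro g x
    rw [hf, hf, hcM, Matrix.mulVec_mulVec, hconj, ← Matrix.mulVec_mulVec]
    have := e₁.symm.map_apply g (Q⁻¹.mulVec (c x))
    rw [← FramedResidual.toResidualGaloisRep_ρ_apply]
    exact this

end abs

section conc

variable (p : ℕ) [Fact p.Prime] (W : WeierstrassCurve ℤ)

/-- **the kill relation**: for every `g`, `W[p](g)` is killed by the characteristic polynomial of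
`ρ₁(g)`, if `ρ₁` has the Frobenius polynomials of `W` at the good primes. -/
theorem m59lg_kill (hp2 : p ≠ 2) (hΔ : W.Δ ≠ 0)
    {k : Type} [Field k] [Algebra (ZMod p) k] (ρ₁ : ResidualGaloisRep k)
    (hfrob : ∀ ℓ : ℕ, ℓ.Prime → ℓ ≠ p → W.IsGoodPrimeFor ℓ →
      ∀ A : ValuationSubring Qb, A.LiesOverPrime ℓ → ∀ σ : GQ, A.IsFrobeniusAt σ ℓ →
        LinearMap.charpoly (ρ₁.ρ σ) =
          X ^ 2 - C (((W.apOfModel ℓ : ℤ) : k)) * X + C ((ℓ : k))) (g : GQ) :
    ∃ a b : ZMod p,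
      galoisRepModuleEnd (K := Qb) ℚ (s58_WQ W) p g * galoisRepModuleEnd (K := Qb) ℚ (s58_WQ W) p g
        - a • galoisRepModuleEnd (K := Qb) ℚ (s58_WQ W) p g
        + b • (1 : Module.End (ZMod p) (Submodule.torsionBy ℤ (s58_E W) p)) = 0 ∧
      LinearMap.charpoly (ρ₁.ρ g) =
        X ^ 2 - C (algebraMap (ZMod p) k a) * X + C (algebraMap (ZMod p) k b) := by
  classical
  have hpp : p.Prime := Fact.out
  have hodd : Odd p := hpp.odd_of_ne_two hp2
  have hΔ' := s58top_Δ_ne_zero hΔ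
  obtain ⟨L1, hL1, h1⟩ := ρ₁.factorsThroughFiniteLevel
  haveI : Finite (Submodule.torsionBy ℤ ((s58_WQ W)⁄Qb).Point p) :=
    ld_finite_torsionBy (s58_WQ W) hΔ' hodd
  obtain ⟨L2, hL2, h2⟩ := prs_torsion_level (s58_WQ W) p
  haveI := hL1
  haveI := hL2
  have hL : FiniteDimensional ℚ ↥(L1 ⊔ L2) := IntermediateField.finiteDimensional_sup L1 L2
  obtain ⟨ℓ, A, τ, hℓ, hℓS, hA, hτ, hτσ⟩ :=
    Fermat.Agent.S56.s56c_exists (L1 ⊔ L2) hL (s44be_bad W p 1) g
  obtain ⟨hℓp, -, hg⟩ := s44be_not_mem_bad hΔ one_ne_zero hℓ hℓS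
  have e1 : ρ₁.ρ τ = ρ₁.ρ g := s44be_eq_of_agree ρ₁.ρ L1 h1 g τ fun x hx =>
    hτσ x ((le_sup_left : L1 ≤ L1 ⊔ L2) hx)
  have e2 : galoisRepModuleEnd (K := Qb) ℚ (s58_WQ W) p τ =
      galoisRepModuleEnd (K := Qb) ℚ (s58_WQ W) p g :=
    s44be_eq_of_agree _ L2 h2 g τ fun x hx => hτσ x ((le_sup_right : L2 ≤ L1 ⊔ L2) hx)
  refine ⟨((W.apOfModel ℓ : ℤ) : ZMod p), ((ℓ : ℕ) : ZMod p), ?_, ?_⟩
  · rw [← e2]
    exact s44be_frob_rel W p hℓ hg hℓp A hA τ hτ
  · have ha : algebraMap (ZMod p) k ((W.apOfModel ℓ : ℤ) : ZMod p) = ((W.apOfModel ℓ : ℤ) : k) :=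
      map_intCast _ _
    have hb : algebraMap (ZMod p) k ((ℓ : ℕ) : ZMod p) = ((ℓ : ℕ) : k) := map_natCast _ _
    rw [← e1, hfrob ℓ hℓ hℓp hg A hA τ hτ, ha, hb]

end conc

/-- **[LINK]** the `𝔽_p`-structure of `ρ̄`. -/
theorem m59lg_link : m59e_Link_stmt := by
  intro p _ hp35 W hΔ hss 𝒪 _ _ _ _ _ _ hp𝒪 ρ hT
  have hp2 : p ≠ 2 := by rcases hp35 with h | h <;> omega
  haveI : CharP (ResidueField 𝒪) p := s56a_charP p hp𝒪
  letI : Algebra (ZMod p) (ResidueField 𝒪) := ZMod.algebra _ p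
  have hV := ld_finrank_torsionBy (K := Qb) (s58_WQ W) (s58top_Δ_ne_zero hΔ) hp2
  obtain ⟨f, hinj, hf⟩ := m59lg_link_abs (F := ZMod p) ρ.residual hT.irr hV
    (galoisRepModuleEnd (K := Qb) ℚ (s58_WQ W) p)
    (fun g => m59lg_kill p W hp2 hΔ ρ.residual hT.frobRes g)
  refine ⟨f, hinj, fun σ x => ?_⟩
  rw [← hf σ x, galoisRepModuleEnd_apply]

/-- a stable line contradicts Burnside. -/
theorem m59lg_no_stable_line {k : Type} [Field k] (ρ₁ : ResidualGaloisRep k)
    (habs : ρ₁.IsAbsolutelyIrreducible) (v : ρ₁.V) (hv : v ≠ 0)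
    (hst : ∀ g : GQ, ρ₁.ρ g v ∈ Submodule.span k {v}) : False := by
  classical
  let S : Submodule k (Module.End k ρ₁.V) :=
    { carrier := {h | h v ∈ Submodule.span k {v}}
      add_mem' := fun {a b} ha hb => by
        show (a + b) v ∈ Submodule.span k {v}
        rw [LinearMap.add_apply]; exact Submodule.add_mem _ ha hb
      zero_mem' := by
        show (0 : Module.End k ρ₁.V) v ∈ Submodule.span k {v}
        rw [LinearMap.zero_apply]; exact Submodule.zero_mem _
      smul_mem' := fun c a ha => by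
        show (c • a) v ∈ Submodule.span k {v}
        rw [LinearMap.smul_apply]; exact Submodule.smul_mem _ c ha }
  have hS : S = ⊤ := by
    rw [eq_top_iff, ← residual_span_range_eq_top ρ₁ habs, Submodule.span_le]
    rintro _ ⟨g, rfl⟩
    exact hst g
  have hne : Submodule.span k {v} ≠ ⊤ := by
    intro h
    have h1 := finrank_span_singleton (K := k) hv
    rw [h, finrank_top, ρ₁.finrank_eq] at h1
    omega
  obtain ⟨y, hy⟩ : ∃ y : ρ₁.V, y ∉ Submodule.span k {v} := by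
    by_contra hall
    push Not at hall
    exact hne (eq_top_iff.mpr fun y _ => hall y)
  obtain ⟨φ, hφ⟩ : ∃ φ : Module.Dual k ρ₁.V, φ v ≠ 0 := by
    by_contra hall
    push Not at hall
    exact hv ((Module.forall_dual_apply_eq_zero_iff k v).mp hall)
  let h : Module.End k ρ₁.V := (φ v)⁻¹ • (LinearMap.toSpanSingleton k ρ₁.V y ∘ₗ φ)
  have hh : h v = y := by
    show (φ v)⁻¹ • (LinearMap.toSpanSingleton k ρ₁.V y (φ v)) = y
    rw [LinearMap.toSpanSingleton_apply, smul_smul, inv_mul_cancel₀ hφ, one_smul]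
  have hmem : h ∈ S := by rw [hS]; trivial
  have : h v ∈ Submodule.span k {v} := hmem
  rw [hh] at this
  exact hy this

/-- **[IRR-W]** back from `ρ̄` to `W[p]`. -/
theorem m59lg_irrW : m59e_IrrW_stmt := by
  intro p _ hp35 W hΔ hss 𝒪 _ _ _ _ _ _ hp𝒪 ρ hT
  classical
  obtain ⟨f, hinj, hf⟩ := m59lg_link p hp35 W hΔ hss 𝒪 hp𝒪 ρ hT
  have hp2 : p ≠ 2 := by rcases hp35 with h | h <;> omega
  have hV := ld_finrank_torsionBy (K := Qb) (s58_WQ W) (s58top_Δ_ne_zero hΔ) hp2
  haveI : Module.Finite (ZMod p) (Submodule.torsionBy ℤ ((s58_WQ W)⁄Qb).Point p) :=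
    Module.finite_of_finrank_eq_succ hV
  refine ⟨Module.nontrivial_of_finrank_pos (R := ZMod p) (by rw [hV]; norm_num), fun N hN => ?_⟩
  by_contra hcon
  push Not at hcon
  obtain ⟨hbot, htop⟩ := hcon
  have h1 : Module.finrank (ZMod p) N = 1 := by
    have hlt := Submodule.finrank_lt htop
    rw [hV] at hlt
    have hpos : 0 < Module.finrank (ZMod p) N := by
      rw [Module.finrank_pos_iff]
      obtain ⟨x, hxN, hx0⟩ := (Submodule.ne_bot_iff N).mp hbot
      exact ⟨⟨⟨x, hxN⟩, 0, fun h => hx0 (congrArg Subtype.val h)⟩⟩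
    omega
  obtain ⟨x, hx0, hx⟩ := finrank_eq_one_iff'.mp h1
  have hx0' : (x : Submodule.torsionBy ℤ ((s58_WQ W)⁄Qb).Point p) ≠ 0 := fun h =>
    hx0 (Subtype.ext h)
  refine m59lg_no_stable_line ρ.residual hT.irr (f x) (fun h => hx0' (hinj (h.trans f.map_zero.symm)))
    (fun g => ?_)
  obtain ⟨c, hc⟩ := hx ⟨g • (x : Submodule.torsionBy ℤ ((s58_WQ W)⁄Qb).Point p), hN g x x.2⟩
  have hc' : g • (x : Submodule.torsionBy ℤ ((s58_WQ W)⁄Qb).Point p) =
      c.val • (x : Submodule.torsionBy ℤ ((s58_WQ W)⁄Qb).Point p) := by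
    have h3 : ((c • x : N) : Submodule.torsionBy ℤ ((s58_WQ W)⁄Qb).Point p) =
        g • (x : Submodule.torsionBy ℤ ((s58_WQ W)⁄Qb).Point p) := congrArg Subtype.val hc
    rw [← h3, Submodule.coe_smul]
    conv_lhs => rw [← ZMod.natCast_zmod_val c]
    rw [Nat.cast_smul_eq_nsmul]
  rw [← hf g x, hc', map_nsmul]
  rw [← Nat.cast_smul_eq_nsmul (ResidueField 𝒪)]
  exact Submodule.smul_mem _ _ (Submodule.mem_span_singleton_self _)

end

end Fermat.Agent.M59
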