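/-
Project M59 (S59), block [A'] LG, cells [EXIT-RES] and [UNR-ODD] of Sink A (helper2 for helper20;
Props pinned in `M59/SinkA/Seams.lean`).  Prefix `m59lg_`, namespace `Fermat.Agent.M59`.

`m59lg_exit_core` : an eigensystem AWAY FROM `S` with the eigenvalues of `W` at level `N`
(`m59e_IsWEig W θ`), and an absolutely irreducible `ρ̄ : ResidualGaloisRep k` with the Frobenius
polynomials of `W` at the good primes, give

* `W.IsResiduallyModularOfLevel p N` (the congruence at EVERY good prime `ℓ ∤ N p`, also at the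
  good primes of `S`), and
* `ρ̄` is unramified at every prime `q ∤ N p`.

Proof (the first half of `m59lg_entry_core`): Deligne–Serre lifting (`twfx_lift`) gives an eigenform
`g` of level `N` and `𝔪' ∋ p`; `Ω :=` an algebraic closure of `ℤ̄/𝔪'`, `k ↪ Ω`; S29 gives `ρ_g` over
`Ω`, unramified outside `N p`; Chebotarev + Brauer–Nesbitt (`twt_re_equiv`) give `ρ̄ ⊗ Ω ≅ ρ_g`.
-/
import Mathlib
import Fermat.Agent.M59.SinkA.Seams
import Fermat.Agent.TW.Top.ResidEquiv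
import Fermat.Agent.TW.Top.CInput
import Fermat.Agent.TW.Easy.Exit
import Fermat.Agent.S29
import Fermat.Agent.JT3.ES.FrobExists
import Fermat.Agent.JT3.Pack.Res.Eigenchar

set_option autoImplicit false
set_option linter.unusedSectionVars false
set_option linter.unusedVariables false
set_option linter.style.haveILetI false
set_option maxHeartbeats 1000000

open Polynomial CuspForm IsLocalRing WeierstrassCurve CongruenceSubgroup ModularFormClass
open Fermat.Agent.TW Fermat.Agent.JT3 Fermat.Agent.S56 ExtCitation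

namespace Fermat.Agent.M59

noncomputable section

/-- **[EXIT-RES] + [UNR-ODD], core form.** -/
theorem m59lg_exit_core {p : ℕ} [hpF : Fact p.Prime] (hp2 : p ≠ 2) (W : WeierstrassCurve ℤ)
    {k : Type} [Field k] [Finite k] [CharP k p]
    (ρbar : ResidualGaloisRep k) (habs : ρbar.IsAbsolutelyIrreducible)
    (hfrob : ∀ ℓ : ℕ, ℓ.Prime → ℓ ≠ p → W.IsGoodPrimeFor ℓ →
      ∀ A : ValuationSubring twt_Qb, A.LiesOverPrime ℓ → ∀ σ : twt_G, A.IsFrobeniusAt σ ℓ →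
        LinearMap.charpoly (ρbar.ρ σ) =
          X ^ 2 - C (((W.apOfModel ℓ : ℤ) : k)) * X + C ((ℓ : k)))
    (S : Finset ℕ) (hS : m59e_IsBadSet W p S)
    (N : ℕ) [NeZero N]
    {k' : Type} [Field k'] [CharP k' p] (θ : heckeAlgebra N 2 (↑S : Set ℕ) →+* k')
    (hθ : m59e_IsWEig W θ) :
    W.IsResiduallyModularOfLevel p N ∧
      ∀ q : ℕ, q.Prime → q ≠ p → ¬ q ∣ N → ρbar.IsUnramifiedAt q := by
  classical
  have hp : p.Prime := hpF.out
  -- Deligne–Serre lifting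
  obtain ⟨g, 𝔪', hg, hmax, hpm, hcong⟩ :=
    twfx_lift hp (↑S : Set ℕ) θ (fun ℓ => W.apOfModel ℓ) hθ
  haveI := hmax
  letI : Field (integralClosure ℤ ℂ ⧸ 𝔪') := Ideal.Quotient.field 𝔪'
  haveI hcharK : CharP (integralClosure ℤ ℂ ⧸ 𝔪') p := by
    rw [CharP.charP_iff_prime_eq_zero hp]
    have : ((p : integralClosure ℤ ℂ ⧸ 𝔪')) = Ideal.Quotient.mk 𝔪' (p : integralClosure ℤ ℂ) :=
      (map_natCast (Ideal.Quotient.mk 𝔪') p).symm
    rw [this, Ideal.Quotient.eq_zero_iff_mem]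
    exact hpm
  -- the big field
  let Ω : Type := AlgebraicClosure (integralClosure ℤ ℂ ⧸ 𝔪')
  haveI hcharΩ : CharP Ω p :=
    charP_of_injective_algebraMap (algebraMap (integralClosure ℤ ℂ ⧸ 𝔪') Ω).injective p
  letI : Algebra (ZMod p) (integralClosure ℤ ℂ ⧸ 𝔪') := ZMod.algebra _ p
  letI : Algebra (ZMod p) k := ZMod.algebra _ p
  haveI : Module.Finite (ZMod p) k := Module.Finite.of_finite
  haveI : Algebra.IsAlgebraic (ZMod p) k := Algebra.IsAlgebraic.of_finite (ZMod p) k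
  let ιa : k →ₐ[ZMod p] Ω := IsAlgClosed.lift
  let ι : k →+* Ω := ιa.toRingHom
  have hι : Function.Injective ι := ι.injective
  letI : Algebra k Ω := ι.toAlgebra
  have halg : ∀ x : k, algebraMap k Ω x = ι x := fun _ => rfl
  have h2Ω : (2 : Ω) ≠ 0 := by
    intro h
    have h2 : ((2 : ℕ) : Ω) = 0 := by exact_mod_cast h
    have hdvd := (CharP.cast_eq_zero_iff Ω p 2).mp h2
    exact hp2 ((Nat.prime_dvd_prime_iff_eq hp Nat.prime_two).mp hdvd)
  have hℓΩ : ∀ ℓ : ℕ, ℓ.Prime → ℓ ≠ p → (ℓ : Ω) ≠ 0 := by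
    intro ℓ hℓ hℓp h
    have hdvd := (CharP.cast_eq_zero_iff Ω p ℓ).mp h
    exact hℓp ((Nat.prime_dvd_prime_iff_eq hp hℓ).mp hdvd).symm
  -- the two representations over `Ω`
  have habsΩ : (ρbar.baseChange Ω).IsAbsolutelyIrreducible := twt_ci_abs ρbar h2Ω habs
  let φ : integralClosure ℤ ℂ →+* Ω :=
    (algebraMap (integralClosure ℤ ℂ ⧸ 𝔪') Ω).comp (Ideal.Quotient.mk 𝔪')
  have hφm : ∀ x ∈ 𝔪', φ x = 0 := by
    intro x hx
    show algebraMap (integralClosure ℤ ℂ ⧸ 𝔪') Ω (Ideal.Quotient.mk 𝔪' x) = 0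
    rw [Ideal.Quotient.eq_zero_iff_mem.mpr hx, map_zero]
  have hφker : ∀ x : integralClosure ℤ ℂ, φ x = 0 → x ∈ 𝔪' := by
    intro x hx
    have h1 : algebraMap (integralClosure ℤ ℂ ⧸ 𝔪') Ω (Ideal.Quotient.mk 𝔪' x) = 0 := hx
    rw [← map_zero (algebraMap (integralClosure ℤ ℂ ⧸ 𝔪') Ω)] at h1
    exact Ideal.Quotient.eq_zero_iff_mem.mp
      ((algebraMap (integralClosure ℤ ℂ ⧸ 𝔪') Ω).injective h1)
  obtain ⟨ρg, hatt, hunr⟩ := Fermat.Agent.S29.result (k := Ω) hg hp φ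
  -- the Frobenius polynomial of `ρ_g` at a prime `ℓ ∤ N`, `ℓ ≠ p`, in terms of ONE integer `a_ℓ(g)`
  have hattc : ∀ (ℓ : ℕ), ℓ.Prime → ¬ ℓ ∣ N → ℓ ≠ p → ∀ b : integralClosure ℤ ℂ,
      (b : ℂ) = qCoeff g ℓ → ∀ A : ValuationSubring twt_Qb, A.LiesOverPrime ℓ →
      ∀ σ : twt_G, A.IsFrobeniusAt σ ℓ →
        LinearMap.charpoly (ρg.ρ σ) = X ^ 2 - C (φ b) * X + C ((ℓ : Ω)) := by
    intro ℓ hℓ hℓN hℓp b hb A hA σ hσ
    obtain ⟨a, ha, hc⟩ := hatt ℓ hℓ hℓN (hℓΩ ℓ hℓ hℓp) A hA σ hσ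
    have : a = b := Subtype.ext (by rw [ha, hb])
    rw [← this]
    exact hc
  -- Chebotarev + Brauer–Nesbitt
  have heq : (ρbar.baseChange Ω).IsEquiv ρg := by
    refine twt_re_equiv _ _ habsΩ (S ∪ N.primeFactors) ?_
    intro ℓ hℓ hℓS' A hA σ hσ
    rw [Finset.mem_union, not_or] at hℓS'
    have hℓN : ¬ ℓ ∣ N := fun h =>
      hℓS'.2 (Nat.mem_primeFactors.mpr ⟨hℓ, h, NeZero.ne N⟩)
    have hℓS : ℓ ∉ (↑S : Set ℕ) := fun h => hℓS'.1 (Finset.mem_coe.mp h)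
    have hℓp : ℓ ≠ p := fun h => hℓS'.1 (h ▸ hS.1)
    have hgood : W.IsGoodPrimeFor ℓ := by
      by_contra hbad
      exact hℓS'.1 (hS.2 ℓ hℓ hbad)
    obtain ⟨b, hb, hbm⟩ := hcong ℓ hℓ hℓN hℓS
    rw [twt_ci_charpoly, hfrob ℓ hℓ hℓp hgood A hA σ hσ, hattc ℓ hℓ hℓN hℓp b hb A hA σ hσ]
    have hφb : φ b = ((W.apOfModel ℓ : ℤ) : Ω) := by
      have h0 := hφm _ hbm
      rw [map_sub, sub_eq_zero] at h0
      rw [h0, map_intCast]
    rw [hφb]
    simp only [Polynomial.map_add, Polynomial.map_sub, Polynomial.map_mul, Polynomial.map_pow,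
      Polynomial.map_X, Polynomial.map_C, map_intCast, map_natCast, Polynomial.map_intCast,
      Polynomial.map_natCast]
    rw [← Polynomial.C_eq_intCast, ← Polynomial.C_eq_natCast]
  refine ⟨⟨g, 𝔪', hg, hmax, hpm, ?_⟩, ?_⟩
  · -- the congruence at EVERY good prime `ℓ ∤ N p`
    intro ℓ hℓ hgood hℓN hℓp
    obtain ⟨e⟩ := heq
    let A := primeLocalPlace ⟨ℓ, hℓ⟩
    have hA : A.LiesOverPrime ℓ := s56ld_liesOver ⟨ℓ, hℓ⟩
    obtain ⟨σ, hσ⟩ := fex_exists_isFrobeniusAt hℓ A hA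
    obtain ⟨a, ha, hc⟩ := hatt ℓ hℓ hℓN (hℓΩ ℓ hℓ hℓp) A hA σ hσ
    refine ⟨a, ha, hφker _ ?_⟩
    have h2 := s56am_charpoly_of_equiv e σ
    rw [twt_ci_charpoly, hfrob ℓ hℓ hℓp hgood A hA σ hσ, hc] at h2
    have h3 := congrArg (fun P : Polynomial Ω => P.coeff 1) h2
    simp only [coeff_map, coeff_add, coeff_sub, coeff_X_pow, coeff_C_mul, coeff_X_one,
      coeff_C] at h3
    norm_num at h3
    rw [map_sub, map_intCast, sub_eq_zero]
    exact (neg_injective h3).symm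
  · -- unramified outside `N p`
    intro q hq hqp hqN
    have hqNp : ¬ q ∣ N * p := by
      intro h
      rcases (Nat.Prime.dvd_mul hq).mp h with h | h
      · exact hqN h
      · exact hqp ((Nat.prime_dvd_prime_iff_eq hq hp).mp h)
    exact (twt_ci_unram_iff (k' := Ω) ρbar q).mp
      (twt_re_unram_of_equiv heq q (hunr q hq hqNp))

/-- **[EXIT-RES]**: the seam `m59sa_ExitRes_stmt` of `M59/SinkA/Seams.lean`, PROVED. -/
theorem m59lg_exitRes : m59sa_ExitRes_stmt := by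
  intro p hpF hp35 W hΔ hW 𝒪 _ _ _ _ _ _ hp𝒪 ρ hT S N hS hsq hNS hOcc
  classical
  have hp2 : p ≠ 2 := by rcases hp35 with rfl | rfl <;> norm_num
  haveI : CharP (ResidueField 𝒪) p := s56a_charP p hp𝒪
  obtain ⟨_, k', _, _, θ, hθ⟩ := hOcc
  exact (m59lg_exit_core hp2 W ρ.residual hT.irr hT.frobRes S hS N θ hθ).1

/-- **[UNR-ODD]**: the seam `m59sa_UnrOdd_stmt` of `M59/SinkA/Seams.lean`, PROVED. -/
theorem m59lg_unrOdd : m59sa_UnrOdd_stmt := by
  intro p hpF hp35 W hΔ hW 𝒪 _ _ _ _ _ _ hp𝒪 ρ hT S N q hS hsq hNS hq hqp hqN hOcc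
  classical
  have hp2 : p ≠ 2 := by rcases hp35 with rfl | rfl <;> norm_num
  haveI : CharP (ResidueField 𝒪) p := s56a_charP p hp𝒪
  obtain ⟨_, k', _, _, θ, hθ⟩ := hOcc
  exact (m59lg_exit_core hp2 W ρ.residual hT.irr hT.frobRes S hS N θ hθ).2 q hq hqp hqN

end

end Fermat.Agent.M59
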