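/-
Project M59 (S59), block [A] LG, twin of `TW/LG/{AsLevel,AsTW2,AsX,AsStmt,AsA4}.lean` (helper2).
Prefix `m59lg_`, namespace `Fermat.Agent.M59`.

**`m59lg_A4 : m59lg_A4_stmt`**: the [A] → [C] seam of the ONE MACHINE for EVERY ODD `p`, ANY level `N`
and a general residual representation.  With respect to `twlg_as_A4_stmt` (`TW/LG/AsStmt.lean`):
`5 ≤ p` is replaced by `p ≠ 2`; `Squarefree N` and `¬ p ∣ N` are dropped; the global hypothesis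
"unramified outside `2 p`" is replaced by "unramified at the primes of `Q`" and, for every hard prime
`ℓ ∈ ThP`, by the two extra conjuncts `¬ ℓ ^ 2 ∣ N` and `ρbar.IsUnramifiedAt ℓ`.  The proofs are those
of main (all leaf cells are imported unchanged from `TW/LG/AsA4`).
-/
import Mathlib
import Fermat.Agent.TW.LG.AsA4

set_option autoImplicit false
set_option linter.unusedSectionVars false
set_option linter.unusedVariables false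
set_option linter.style.haveILetI false
set_option maxHeartbeats 1000000

open Polynomial CuspForm IsLocalRing ExtCitation Fermat.Agent.JT3
open Fermat.Agent.S53 Fermat.Agent.S56
open scoped TensorProduct

namespace Fermat.Agent.M59

open Fermat.Agent.TW

noncomputable section

local notation "GQ" => (AlgebraicClosure ℚ ≃ₐ[ℚ] AlgebraicClosure ℚ)
local notation "Qbar" => AlgebraicClosure ℚ

section arith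
variable {N : ℕ} {S Q Th : Finset ℕ}

/-- a hard prime divides the balanced level exactly twice. -/
theorem m59lg_level_hard (hTh2 : ∀ ℓ ∈ Th, ¬ ℓ ^ 2 ∣ N) (hNS : ∀ ℓ : ℕ, ℓ.Prime → ℓ ∣ N → ℓ ∈ S)
    (hQ : ∀ t ∈ Q, t.Prime) (hQS : ∀ t ∈ Q, t ∉ S) (hTh : ∀ ℓ ∈ Th, ℓ.Prime ∧ ℓ ∣ N)
    (ℓ : ℕ) (hℓ : ℓ ∈ Th) :
    ℓ ∣ twe_Nbal N Q Th ∧ ℓ ∣ twe_Nbal N Q Th / ℓ ∧ ¬ ℓ ^ 2 ∣ twe_Nbal N Q Th / ℓ := by
  classical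
  obtain ⟨hℓp, N1, hN1⟩ := hTh ℓ hℓ
  have hℓN1 : ¬ ℓ ∣ N1 := by
    rintro ⟨c, hc⟩
    have h1 : ℓ ^ 2 ∣ N := ⟨c, by rw [hN1, hc]; ring⟩
    exact hTh2 ℓ hℓ h1
  refine twlg_as_level (m := N1 * (∏ x ∈ Q, x ^ 2) * ∏ x ∈ Th.erase ℓ, x) hℓp ?_ ?_
  · unfold twe_Nbal
    rw [← Finset.mul_prod_erase Th (fun x => x) hℓ, hN1]
    ring
  · intro h
    rcases (Nat.Prime.dvd_mul hℓp).1 h with h1 | h1
    · rcases (Nat.Prime.dvd_mul hℓp).1 h1 with h2 | h2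
      · exact hℓN1 h2
      · have h3 := twlg_as_prime_dvd_prod hℓp hQ 2 h2
        exact hQS ℓ h3 (hNS ℓ hℓp ⟨N1, hN1⟩)
    · have h3 : ℓ ∣ ∏ x ∈ Th.erase ℓ, x ^ 1 := by simpa using h1
      have h4 := twlg_as_prime_dvd_prod hℓp
        (fun x hx => (hTh x (Finset.mem_of_mem_erase hx)).1) 1 h3
      exact (Finset.notMem_erase ℓ Th) h4

end arith

section tw

variable {𝒪 : Type} [CommRing 𝒪] [IsDomain 𝒪] [IsDiscreteValuationRing 𝒪]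
  [IsAdicComplete (maximalIdeal 𝒪) 𝒪] [Finite (ResidueField 𝒪)] [CharZero 𝒪]
  {N : ℕ} [NeZero N] {S : Finset ℕ} {θ : heckeAlgebra N 2 (↑S : Set ℕ) →+* ResidueField 𝒪}
  {B : twe_Base 𝒪 N S θ} {p : ℕ} {Q : Finset ℕ} [NeZero (twe_Nbal N Q ∅)]
  {L : twe_Level B p Q} {Th : Finset ℕ} [NeZero (twe_Nbal N Q Th)]

/-- the per-prime output of `twlg_as_one` for a big system. -/
theorem m59lg_tw_one2 [hpF : Fact p.Prime] (hp2' : p ≠ 2) (hp𝒪 : (p : 𝒪) ∈ maximalIdeal 𝒪)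
    (hpS : p ∈ S) (hNS : ∀ ℓ : ℕ, ℓ.Prime → ℓ ∣ N → ℓ ∈ S)
    (ρbar : ResidualGaloisRep (ResidueField 𝒪)) (hcompat : twt_Compat θ ρbar)
    (hunr : ∀ t ∈ Q, ρbar.IsUnramifiedAt t)
    (hQS : ∀ t ∈ Q, t ∉ S) (hTW : twe_IsTWSet θ p Q)
    (hsplit : ∀ t ∈ Q, ∀ P : ValuationSubring Qbar, P.LiesOverPrime t → ∀ φ : GQ,
      P.IsFrobeniusAt φ t →
      ∃ α β : ResidueField 𝒪, α ≠ β ∧ LinearMap.charpoly (ρbar.ρ φ) = (X - C α) * (X - C β))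
    (hTh : ∀ ℓ ∈ Th, ℓ.Prime ∧ ℓ ∣ N)
    (Bg : twe_Big L Th) (hBg : Bg.IsLG2) (t : ℕ) (ht : t ∈ Q) :
    ∃ u : Bg.T'', u - 1 ∈ maximalIdeal Bg.T'' ∧ u ^ p ^ padicValNat p (t - 1) = 1 ∧
      (∀ m : Bg.Mb, ∃ m' : Bg.Mb, (u - 1) • m = Bg.diaQ t ht m' - m') ∧
      ∀ (K : Type) [Field K] [IsAlgClosed K] [Algebra 𝒪 K],
        Function.Injective (algebraMap 𝒪 K) →
        ∀ (χ : Bg.T'' →ₐ[𝒪] K) (v : K ⊗[𝒪] Bg.Mb), v ≠ 0 →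
          (∀ x : Bg.T'', (twe_act (MX := Bg.Mb) x).baseChange K v = χ x • v) →
          ∀ z : K, z ≠ 1 → (Bg.diaQ t ht).baseChange K v = z • v → χ u ≠ 1 := by
  have hp : p.Prime := hpF.out
  have hp3 : 3 ≤ p := by have := hp.two_le; omega
  have hQ : ∀ t ∈ Q, t.Prime := fun t ht => (hTW t ht).1
  have htp : t.Prime := hQ t ht
  have htmod : t % p = 1 := (hTW t ht).2.1
  have htnp : t ≠ p := fun h => hQS t ht (h ▸ hpS)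
  have ht2 : t ≠ 2 := by
    intro h
    rw [h, Nat.mod_eq_of_lt (by omega)] at htmod
    omega
  have hpS' : p ∈ S ∪ Q := Finset.mem_union_left _ hpS
  have hNS' : ∀ r : ℕ, r.Prime → r ∣ twe_Nbal N Q Th → r ∈ S ∪ Q :=
    twlg_as_level_primes hNS hQ hTh
  obtain ⟨h1, h2, h3⟩ := twlg_as_level_tw hNS hQ hQS hTh t ht
  obtain ⟨⟨_, ⟨Od⟩⟩, hnew⟩ := hBg.1 t ht
  exact twlg_as_one hp𝒪 hpS' hNS' ρbar (twlg_as_compat_big Bg ρbar hcompat) t htp htnp htmod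
    (hunr t ht) (hsplit t ht) h1 h2 h3 Od hnew

/-- **(A-TW)**: the first clause of `twc_ALG`. -/
theorem m59lg_tw2 [hpF : Fact p.Prime] (hp2' : p ≠ 2) (hp𝒪 : (p : 𝒪) ∈ maximalIdeal 𝒪)
    (ζ : 𝒪) (hζ : IsPrimitiveRoot ζ p)
    (hpS : p ∈ S) (hNS : ∀ ℓ : ℕ, ℓ.Prime → ℓ ∣ N → ℓ ∈ S)
    (ρbar : ResidualGaloisRep (ResidueField 𝒪)) (hcompat : twt_Compat θ ρbar)
    (hunr : ∀ t ∈ Q, ρbar.IsUnramifiedAt t)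
    (hQS : ∀ t ∈ Q, t ∉ S) (hTW : twe_IsTWSet θ p Q)
    (hsplit : ∀ t ∈ Q, ∀ P : ValuationSubring Qbar, P.LiesOverPrime t → ∀ φ : GQ,
      P.IsFrobeniusAt φ t →
      ∃ α β : ResidueField 𝒪, α ≠ β ∧ LinearMap.charpoly (ρbar.ρ φ) = (X - C α) * (X - C β))
    (hTh : ∀ ℓ ∈ Th, ℓ.Prime ∧ ℓ ∣ N)
    (Bg : twe_Big L Th) (hBg : Bg.IsLG2) :
    ∃ u : ∀ t : ℕ, t ∈ Q → Bg.T'',
      (∀ t ht, u t ht - 1 ∈ maximalIdeal Bg.T'') ∧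
      (∀ t ht (m : Bg.Mb), u t ht ^ twe_ord p t • m = m) ∧
      (∀ t ht (m : Bg.Mb), ∃ m' : Bg.Mb, (u t ht - 1) • m = Bg.diaQ t ht m' - m') ∧
      (∀ t ht (m : Bg.Mb), ∃ m' : Bg.Mb, Bg.diaQ t ht m - m = (u t ht - 1) • m') := by
  classical
  have hp : p.Prime := hpF.out
  have hp2 : p ≠ 2 := hp2'
  have hone := fun (t : ℕ) (ht : t ∈ Q) => m59lg_tw_one2 hp2' hp𝒪 hpS hNS ρbar hcompat hunr hQS hTW
    hsplit hTh Bg hBg t ht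
  choose u hu1 hupow hH2 heig using hone
  refine ⟨u, hu1, ?_, hH2, ?_⟩
  · intro t ht m
    show u t ht ^ p ^ padicValNat p (t - 1) • m = m
    rw [hupow t ht, one_smul]
  · -- the matching lemma on `Mb`
    haveI : ∀ i : ↥Q, NeZero (twe_ord p (i : ℕ)) := fun i => ⟨pow_ne_zero _ hp.ne_zero⟩
    haveI : ∀ i : ↥Th, NeZero (twe_ord p (i : ℕ)) := fun i => ⟨pow_ne_zero _ hp.ne_zero⟩
    have hn : ∀ i : ↥Q, 0 < padicValNat p ((i : ℕ) - 1) := by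
      intro i
      have htp : (i : ℕ).Prime := (hTW i i.2).1
      have htmod : (i : ℕ) % p = 1 := (hTW i i.2).2.1
      have hpdvd : p ∣ (i : ℕ) - 1 := by
        have h1 : 1 ≡ (i : ℕ) [MOD p] := by
          rw [Nat.ModEq, htmod, Nat.mod_eq_of_lt hp.one_lt]
        exact (Nat.modEq_iff_dvd' htp.one_le).1 h1
      exact one_le_padicValNat_of_dvd (by have := htp.two_le; omega) hpdvd
    have key := twlg_as_match_two (O := 𝒪) (𝒰 := Bg.T'') (M := Bg.Mb) p hp2 hp𝒪 ζ hζ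
      (fun i : ↥Q => twe_ord p (i : ℕ)) (fun i : ↥Q => padicValNat p ((i : ℕ) - 1)) hn
      (fun _ => rfl) (fun i : ↥Th => twe_ord p (i : ℕ))
      (fun i : ↥Q => u i i.2) (fun i => hupow i i.2)
      (fun i m => by
        obtain ⟨m', hm'⟩ := hH2 i i.2 m
        refine ⟨m', ?_⟩
        rw [hm', sub_smul, one_smul]
        rfl)
      (fun i K _ _ _ hK χ v hv0 hv z hz hδ =>
        heig i i.2 K hK χ v hv0 (fun x => by rw [twlg_as_act_eq]; exact hv x) z hz hδ)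
    intro t ht m
    obtain ⟨m', hm'⟩ := key ⟨t, ht⟩ m
    refine ⟨m', ?_⟩
    rw [← hm', sub_smul, one_smul]
    rfl

/-- **(A-X)**: the second clause of `twc_ALG`. -/
theorem m59lg_x [hpF : Fact p.Prime] (hp2' : p ≠ 2) (hp𝒪 : (p : 𝒪) ∈ maximalIdeal 𝒪)
    (hTh2 : ∀ ℓ ∈ Th, ¬ ℓ ^ 2 ∣ N)
    (hpS : p ∈ S) (hNS : ∀ ℓ : ℕ, ℓ.Prime → ℓ ∣ N → ℓ ∈ S)
    (ρbar : ResidualGaloisRep (ResidueField 𝒪)) (hcompat : twt_Compat θ ρbar)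
    (hunr : ∀ ℓ ∈ Th, ρbar.IsUnramifiedAt ℓ)
    (hQS : ∀ t ∈ Q, t ∉ S) (hTW : twe_IsTWSet θ p Q)
    (hTh : ∀ ℓ ∈ Th, ℓ.Prime ∧ ℓ ∣ N)
    {ThP : Finset Nat.Primes} (td : twc_TameData p ThP) (hgen : twib_InertiaGen td)
    (hThP : ∀ ℓ ∈ ThP, (ℓ : ℕ) ∈ Th ∧ (ℓ : ℕ) ≠ 2 ∧ (ℓ : ℕ) % p = 1)
    (Bg : twe_Big L Th) (hBg : Bg.IsLG2)
    (χ : twe_Delta p Th →* 𝒪ˣ)
    (hχ : ∀ (ℓ : ℕ) (hℓ : ℓ ∈ Th), IsPrimitiveRoot ((χ (twe_gen p Th ℓ hℓ) : 𝒪ˣ) : 𝒪) p) :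
    ∀ r : FramedRep Bg.T'', Bg.H''.ρ.IsEquiv r.toGaloisRepAdic →
      ∀ ℓ : Nat.Primes, ℓ ∈ ThP → ∀ (i j : Fin 2) (m : Bg.Mb),
        (∑ k ∈ Finset.range p, r (td.gσ ℓ) ^ k) i j • m ∈
          twc_chiSub (G := twe_Delta p Q) (Mb := Bg.Mb) χ := by
  classical
  rintro r ⟨e⟩ ℓ hℓP
  have hp : p.Prime := hpF.out
  have hp2 : p ≠ 2 := hp2'
  obtain ⟨hℓTh, hℓ2, hℓmod⟩ := hThP ℓ hℓP
  have hℓp : (ℓ : ℕ) ≠ p := by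
    intro h
    rw [h, Nat.mod_self] at hℓmod
    omega
  have hQ : ∀ t ∈ Q, t.Prime := fun t ht => (hTW t ht).1
  have hpS' : p ∈ S ∪ Q := Finset.mem_union_left _ hpS
  have hNS' : ∀ r : ℕ, r.Prime → r ∣ twe_Nbal N Q Th → r ∈ S ∪ Q :=
    twlg_as_level_primes hNS hQ hTh
  obtain ⟨h1, h2, h3⟩ := m59lg_level_hard hTh2 hNS hQ hQS hTh (ℓ : ℕ) hℓTh
  obtain ⟨⟨_, ⟨Od⟩⟩, hnew⟩ := hBg.2 (ℓ : ℕ) hℓTh
  obtain ⟨hres, hdet, hold, heigen⟩ := twlg_ax_one hp𝒪 hpS' hNS' ρbar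
    (twlg_as_compat_big Bg ρbar hcompat) td hgen ℓ hℓP hℓp (hunr (ℓ : ℕ) hℓTh) h1 h2 h3
    Od hnew
  have hpT : (p : Bg.T'') ∈ maximalIdeal Bg.T'' := twt_dl_p_mem hp𝒪
  -- the framed data
  have htr := twlg_ax_trace_eq Bg.H''.ρ r e (td.gσ ℓ)
  have hdet' : (r (td.gσ ℓ)).det = 1 := by rw [twlg_ax_det_eq Bg.H''.ρ r e, hdet]
  have hPh : IsUnit (r (td.gφ ℓ)).det :=
    (Matrix.isUnit_iff_isUnit_det _).1 (r.isUnit_apply (td.gφ ℓ))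
  have htame : r (td.gφ ℓ) * r (td.gσ ℓ) = r (td.gσ ℓ) ^ (ℓ : ℕ) * r (td.gφ ℓ) :=
    twc_lr_rel td hpT r ℓ hℓP (fun τ hτ => twlg_ax_framed_small Bg.H''.ρ r e τ (hres τ hτ))
  obtain ⟨v, r', hℓeq, hr', hℓ1⟩ := twlg_ax_arith hp hp2 ℓ.2 hℓmod
  obtain ⟨u1, hu1⟩ := (twlg_as_natCast_isUnit (T := 𝒪) hp hp𝒪 ((ℓ : ℕ) + 1) hℓ1).exists_left_inv
  obtain ⟨u2, hu2⟩ := (twlg_as_natCast_isUnit (T := 𝒪) hp hp𝒪 r' hr').exists_left_inv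
  haveI : ∀ i : ↥Th, NeZero (twe_ord p (i : ℕ)) := fun i => ⟨pow_ne_zero _ hp.ne_zero⟩
  exact twlg_ax_core (O := 𝒪) (T := Bg.T'') (Mb := Bg.Mb) (G := twe_Delta p Q) p hp2 hp𝒪
    (fun i : ↥Th => twe_ord p (i : ℕ)) χ ⟨(ℓ : ℕ), hℓTh⟩ (hχ (ℓ : ℕ) hℓTh)
    (r (td.gσ ℓ)) (r (td.gφ ℓ)) hdet' hPh (ℓ : ℕ) v r' hℓeq u1 u2 hu1 hu2 htame
    (fun m => by
      obtain ⟨m', hm'⟩ := hold m
      refine ⟨m', ?_⟩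
      rw [htr, hm']
      rfl)
    (fun K _ _ _ hK χ' w hw0 hw z hz hδ => by
      rw [htr]
      exact heigen K hK χ' w hw0 (fun x => by rw [twlg_as_act_eq]; exact hw x) z hz hδ)

end tw

/-- **the [A] → [C] seam for every odd `p`, any level, general `ρ̄`** (twin of `twlg_as_A4_stmt`). -/
def m59lg_A4_stmt : Prop :=
  ∀ (p : ℕ) [Fact p.Prime], p ≠ 2 →
  ∀ (𝒪 : Type) [CommRing 𝒪] [IsDomain 𝒪] [IsDiscreteValuationRing 𝒪]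
    [IsAdicComplete (maximalIdeal 𝒪) 𝒪] [Finite (ResidueField 𝒪)] [CharZero 𝒪],
    (p : 𝒪) ∈ maximalIdeal 𝒪 →
  ∀ (ζ : 𝒪), IsPrimitiveRoot ζ p →
  ∀ (N : ℕ) [NeZero N],
  ∀ (S : Finset ℕ), p ∈ S → (∀ ℓ : ℕ, ℓ.Prime → ℓ ∣ N → ℓ ∈ S) →
  ∀ (θ : heckeAlgebra N 2 (↑S : Set ℕ) →+* ResidueField 𝒪)
    (ρbar : ResidualGaloisRep (ResidueField 𝒪)),
    twt_Compat θ ρbar → ρbar.IsAbsolutelyIrreducible →
  ∀ (B : twe_Base 𝒪 N S θ) (Q : Finset ℕ) [NeZero (twe_Nbal N Q ∅)],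
    (∀ t ∈ Q, t ∉ S) → twe_IsTWSet θ p Q → (∀ t ∈ Q, ρbar.IsUnramifiedAt t) →
    (∀ t ∈ Q, ∀ P : ValuationSubring Qbar, P.LiesOverPrime t → ∀ φ : GQ, P.IsFrobeniusAt φ t →
      ∃ α β : ResidueField 𝒪, α ≠ β ∧ LinearMap.charpoly (ρbar.ρ φ) = (X - C α) * (X - C β)) →
  ∀ (L : twe_Level B p Q), L.IsLG2 →
  ∀ (ThP : Finset Nat.Primes),
    (∀ ℓ ∈ ThP, (ℓ : ℕ) ∣ N ∧ ¬ (ℓ : ℕ) ^ 2 ∣ N ∧ (ℓ : ℕ) ≠ 2 ∧ (ℓ : ℕ) % p = 1 ∧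
      ρbar.IsUnramifiedAt (ℓ : ℕ) ∧ twt_FrobScalar ρbar ℓ) →
  ∀ (td : twc_TameData p ThP), twib_InertiaGen td →
  ∀ [NeZero (twe_Nbal N Q (ThP.image fun ℓ : Nat.Primes => (ℓ : ℕ)))]
    (Bg : twe_Big L (ThP.image fun ℓ : Nat.Primes => (ℓ : ℕ))), Bg.IsLG2 →
  ∀ (χ : twe_Delta p (ThP.image fun ℓ : Nat.Primes => (ℓ : ℕ)) →* 𝒪ˣ),
    (∀ (ℓ : ℕ) (hℓ : ℓ ∈ ThP.image fun ℓ : Nat.Primes => (ℓ : ℕ)),
      IsPrimitiveRoot ((χ (twe_gen p _ ℓ hℓ) : 𝒪ˣ) : 𝒪) p) →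
    twc_ALG Bg χ td.gσ

theorem m59lg_A4 : m59lg_A4_stmt := by
  intro p _ hp2 𝒪 _ _ _ _ _ _ hp𝒪 ζ hζ N _ S hpS hNS θ ρbar hcompat hirr B Q _ hQS hTW hunrQ
    hsplit L hL ThP hThP td hgen _ Bg hBg χ hχ
  have hTh : ∀ ℓ ∈ ThP.image (fun ℓ : Nat.Primes => (ℓ : ℕ)), ℓ.Prime ∧ ℓ ∣ N := by
    intro ℓ hℓ
    obtain ⟨ℓ', hℓ', rfl⟩ := Finset.mem_image.1 hℓ
    exact ⟨ℓ'.2, (hThP ℓ' hℓ').1⟩
  have hTh2 : ∀ ℓ ∈ ThP.image (fun ℓ : Nat.Primes => (ℓ : ℕ)), ¬ ℓ ^ 2 ∣ N := by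
    intro ℓ hℓ
    obtain ⟨ℓ', hℓ', rfl⟩ := Finset.mem_image.1 hℓ
    exact (hThP ℓ' hℓ').2.1
  have hunrTh : ∀ ℓ ∈ ThP.image (fun ℓ : Nat.Primes => (ℓ : ℕ)), ρbar.IsUnramifiedAt ℓ := by
    intro ℓ hℓ
    obtain ⟨ℓ', hℓ', rfl⟩ := Finset.mem_image.1 hℓ
    exact (hThP ℓ' hℓ').2.2.2.2.1
  refine ⟨m59lg_tw2 hp2 hp𝒪 ζ hζ hpS hNS ρbar hcompat hunrQ hQS hTW hsplit hTh Bg hBg, ?_⟩
  intro r hr ℓ hℓ
  have hℓP : ℓ ∈ ThP := by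
    obtain ⟨ℓ', hℓ', h⟩ := Finset.mem_image.1 hℓ
    have : ℓ' = ℓ := Subtype.ext h
    rw [← this]; exact hℓ'
  exact m59lg_x hp2 hp𝒪 hTh2 hpS hNS ρbar hcompat hunrTh hQS hTW hTh td hgen
    (fun ℓ' hℓ' => ⟨Finset.mem_image_of_mem _ hℓ', (hThP ℓ' hℓ').2.2.1, (hThP ℓ' hℓ').2.2.2.1⟩)
    Bg hBg χ hχ r hr ℓ hℓP

end

end Fermat.Agent.M59
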